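import Fermat.Agent.GelfondCubic.ZeroEstimate
import Mathlib.Algebra.Polynomial.Taylor
import Mathlib.Algebra.Polynomial.HasseDeriv
import Mathlib.Analysis.Complex.TaylorSeries

/-!
# Zeros of exponential polynomials with polynomial coefficients

`f z = ∑ c (i, a) z ^ a exp (w i z)`, `a < A`, has the moments `M (X ^ k)` for the functional
`M g = ∑ c (i, a) g ^ (a) (w i)`, which vanishes on the multiples of `∏ (X - w i) ^ A`; so Newton
interpolation at the repeated nodes bounds its growth as in the simple case.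
-/

set_option autoImplicit false

noncomputable section

open Finset Polynomial
open scoped Nat Topology

namespace FA.BrownawellWaldschmidt

open FA.GelfondCubic (newtonPoly newtonCoord)

/-- Newton's interpolation as a congruence. -/
theorem dvd_X_pow_sub_newton (u : ℕ → ℂ) (n : ℕ) (k : ℕ) :
    newtonPoly u n ∣ X ^ k - ∑ j ∈ range n, C (newtonCoord u k j) * newtonPoly u j := by
  obtain _ | n := n
  · simp [FA.GelfondCubic.newtonPoly]
  induction k with
  | zero =>
    rw [sum_eq_single_of_mem 0 (mem_range.2 (Nat.succ_pos n))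
      fun j _ hj => by simp [FA.GelfondCubic.newtonCoord, hj]]
    simp [FA.GelfondCubic.newtonCoord, FA.GelfondCubic.newtonPoly]
  | succ k ih =>
    have hstep : ∀ j, X * newtonPoly u j = newtonPoly u (j + 1) + C (u j) * newtonPoly u j :=
      fun j => by
        simp only [FA.GelfondCubic.newtonPoly, prod_range_succ]
        ring
    have e : X ^ (k + 1) - ∑ j ∈ range (n + 1), C (newtonCoord u (k + 1) j) * newtonPoly u j =
        X * (X ^ k - ∑ j ∈ range (n + 1), C (newtonCoord u k j) * newtonPoly u j) +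
          C (newtonCoord u k n) * newtonPoly u (n + 1) := by
      rw [mul_sub, mul_sum, ← pow_succ']
      simp only [mul_left_comm X, hstep, mul_add, sum_add_distrib]
      rw [sum_range_succ (fun j => C (newtonCoord u k j) * newtonPoly u (j + 1)),
        sum_range_succ' (fun j => C (newtonCoord u (k + 1) j) * newtonPoly u j),
        sum_range_succ' (fun j => C (newtonCoord u k j) * (C (u j) * newtonPoly u j))]
      simp only [FA.GelfondCubic.newtonCoord, map_add, map_mul, add_mul, sum_add_distrib]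
      rw [sum_congr rfl fun j (_ : j ∈ range n) =>
        show C (u (j + 1)) * C (newtonCoord u k (j + 1)) * newtonPoly u (j + 1) =
          C (newtonCoord u k (j + 1)) * (C (u (j + 1)) * newtonPoly u (j + 1)) by ring]
      ring
    rw [e]
    exact dvd_add (dvd_mul_of_dvd_right ih _) (dvd_mul_left _ _)

variable {ι : Type*} [Fintype ι] {A : ℕ}

/-- An exponential polynomial with coefficients of degree below `A`. -/
def expPolyM (c : ι × Fin A → ℂ) (w : ι → ℂ) (z : ℂ) : ℂ :=
  ∑ x, c x * z ^ (x.2 : ℕ) * Complex.exp (w x.1 * z)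

/-- The functional `g ↦ ∑ c (i, a) g ^ (a) (w i)`. -/
def moment (c : ι × Fin A → ℂ) (w : ι → ℂ) (g : ℂ[X]) : ℂ :=
  ∑ x, c x * ((derivative^[(x.2 : ℕ)]) g).eval (w x.1)

theorem eval_iterate_derivative (g : ℂ[X]) (v : ℂ) (a : ℕ) :
    ((derivative^[a]) g).eval v = (a ! : ℂ) * (taylor v g).coeff a := by
  rw [taylor_coeff, ← factorial_smul_hasseDeriv, LinearMap.smul_apply, eval_smul, nsmul_eq_mul]

theorem moment_add (c : ι × Fin A → ℂ) (w : ι → ℂ) (g h : ℂ[X]) :
    moment c w (g + h) = moment c w g + moment c w h := by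
  simp only [moment, eval_iterate_derivative, map_add, coeff_add, mul_add, sum_add_distrib]

theorem moment_C_mul (c : ι × Fin A → ℂ) (w : ι → ℂ) (r : ℂ) (g : ℂ[X]) :
    moment c w (C r * g) = r * moment c w g := by
  simp only [moment, eval_iterate_derivative, mul_sum, ← smul_eq_C_mul, map_smul, coeff_smul,
    smul_eq_mul]
  exact sum_congr rfl fun x _ => by ring

theorem moment_sum {κ : Type*} (s : Finset κ) (c : ι × Fin A → ℂ) (w : ι → ℂ) (g : κ → ℂ[X]) :
    moment c w (∑ k ∈ s, g k) = ∑ k ∈ s, moment c w (g k) := by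
  simp only [moment, eval_iterate_derivative, map_sum, finsetSum_coeff, mul_sum]
  exact sum_comm

theorem coeff_taylor_eq_zero {g : ℂ[X]} {v : ℂ} {m a : ℕ} (h : (X - C v) ^ m ∣ g) (ha : a < m) :
    (taylor v g).coeff a = 0 := by
  obtain ⟨h', rfl⟩ := h
  rw [taylor_mul, taylor_pow, map_sub, taylor_X, taylor_C, add_sub_cancel_right, mul_comm,
    coeff_mul_X_pow', if_neg (by omega)]

theorem moment_eq_zero_of_dvd (c : ι × Fin A → ℂ) (w : ι → ℂ) {g : ℂ[X]}
    (h : ∏ i, (X - C (w i)) ^ A ∣ g) : moment c w g = 0 := by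
  refine sum_eq_zero fun x _ => ?_
  rw [eval_iterate_derivative, coeff_taylor_eq_zero
    ((dvd_prod_of_mem (fun i => (X - C (w i)) ^ A) (mem_univ x.1)).trans h) x.2.isLt, mul_zero,
    mul_zero]

theorem moment_X_pow (c : ι × Fin A → ℂ) (w : ι → ℂ) (k : ℕ) :
    moment c w (X ^ k) =
      ∑ x, c x * ((k.descFactorial x.2 : ℂ) * w x.1 ^ (k - (x.2 : ℕ))) := by
  refine sum_congr rfl fun x _ => ?_
  rw [iterate_derivative_X_pow_eq_natCast_mul, eval_mul, eval_natCast, eval_pow, eval_X]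

theorem iteratedDeriv_term (v : ℂ) (a k : ℕ) (z : ℂ) :
    iteratedDeriv k (fun z => z ^ a * Complex.exp (v * z)) z =
      (∑ i ∈ range (k + 1), (k.choose i : ℂ) * (a.descFactorial i : ℂ) * z ^ (a - i) *
        v ^ (k - i)) * Complex.exp (v * z) := by
  rw [iteratedDeriv_fun_mul (by fun_prop) (by fun_prop), sum_mul]
  refine sum_congr rfl fun i _ => ?_
  rw [iteratedDeriv_cexp_const_mul, iteratedDeriv_pow]
  ring

theorem differentiable_expPolyM (c : ι × Fin A → ℂ) (w : ι → ℂ) :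
    Differentiable ℂ (expPolyM c w) :=
  Differentiable.fun_sum fun x _ => by fun_prop

theorem iteratedDeriv_expPolyM (c : ι × Fin A → ℂ) (w : ι → ℂ) (k : ℕ) (z : ℂ) :
    iteratedDeriv k (expPolyM c w) z = ∑ x, c x * ((∑ i ∈ range (k + 1), (k.choose i : ℂ) *
      ((x.2 : ℕ).descFactorial i : ℂ) * z ^ ((x.2 : ℕ) - i) * w x.1 ^ (k - i)) *
        Complex.exp (w x.1 * z)) := by
  show iteratedDeriv k (fun z => ∑ x, c x * z ^ (x.2 : ℕ) * Complex.exp (w x.1 * z)) z = _
  rw [iteratedDeriv_fun_sum fun x _ => by fun_prop]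
  refine sum_congr rfl fun x _ => ?_
  simp only [mul_assoc]
  rw [iteratedDeriv_const_mul_field, iteratedDeriv_term]
  simp only [mul_assoc]

theorem iteratedDeriv_expPolyM_zero (c : ι × Fin A → ℂ) (w : ι → ℂ) (k : ℕ) :
    iteratedDeriv k (expPolyM c w) 0 = moment c w (X ^ k) := by
  rw [iteratedDeriv_expPolyM, moment_X_pow]
  refine sum_congr rfl fun x _ => ?_
  rw [mul_zero, Complex.exp_zero, mul_one, Nat.descFactorial_eq_factorial_mul_choose k]
  congr 1
  rw [sum_eq_single (x.2 : ℕ) (fun i _ hi => ?_) (fun h => ?_), Nat.descFactorial_self,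
    Nat.sub_self, pow_zero, mul_one]
  · push_cast; ring
  · rcases lt_or_gt_of_ne hi with hi | hi
    · rw [zero_pow (by omega), mul_zero, zero_mul]
    · rw [Nat.descFactorial_eq_zero_iff_lt.2 hi, Nat.cast_zero, mul_zero, zero_mul, zero_mul]
  · rw [Nat.choose_eq_zero_of_lt (by rw [mem_range] at h; omega)]
    simp

theorem hasSum_expPolyM (c : ι × Fin A → ℂ) (w : ι → ℂ) (z : ℂ) :
    HasSum (fun k : ℕ => z ^ k / (k ! : ℂ) * moment c w (X ^ k)) (expPolyM c w z) := by
  have h := Complex.hasSum_taylorSeries_of_entire (differentiable_expPolyM c w) 0 z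
  refine h.congr_fun fun k => ?_
  rw [iteratedDeriv_expPolyM_zero, sub_zero, smul_eq_mul, smul_eq_mul]
  ring

theorem norm_expPolyM_le (c : ι × Fin A → ℂ) (w : ι → ℂ) {P Δ r : ℝ} (hP : ∀ x, ‖c x‖ ≤ P)
    (hw : ∀ i, ‖w i‖ ≤ Δ) (hr : 1 ≤ r) {z : ℂ} (hz : ‖z‖ ≤ r) :
    ‖expPolyM c w z‖ ≤ Fintype.card ι * A * (P * r ^ A * Real.exp (Δ * r)) := by
  refine (norm_sum_le _ _).trans ((sum_le_card_nsmul _ _ (P * r ^ A * Real.exp (Δ * r))
    fun x _ => ?_).trans_eq ?_)
  · rw [norm_mul, norm_mul, norm_pow, Complex.norm_exp]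
    refine mul_le_mul (mul_le_mul (hP x) ((pow_le_pow_left₀ (norm_nonneg _) hz _).trans
      (pow_le_pow_right₀ hr x.2.isLt.le)) (by positivity) ((norm_nonneg _).trans (hP x)))
      (Real.exp_le_exp.2 ((Complex.re_le_norm _).trans ?_)) (Real.exp_pos _).le
      (mul_nonneg ((norm_nonneg _).trans (hP x)) (by positivity))
    rw [norm_mul]
    exact mul_le_mul (hw _) hz (norm_nonneg _) ((norm_nonneg _).trans (hw x.1))
  · rw [card_univ, Fintype.card_prod, Fintype.card_fin, nsmul_eq_mul, Nat.cast_mul]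

/-- **The growth.** -/
theorem norm_expPolyM_le_growth (c : ι × Fin A → ℂ) (w : ι → ℂ) {Δ R s M : ℝ}
    (hw : ∀ i, ‖w i‖ ≤ Δ) (hΔ : 0 ≤ Δ) (hR : 0 < R) (hs : 1 ≤ s)
    (hM : ∀ z : ℂ, ‖z‖ ≤ R → ‖expPolyM c w z‖ ≤ M) {z : ℂ} (hz : ‖z‖ ≤ s * R) :
    ‖expPolyM c w z‖ ≤ (Fintype.card ι * A : ℕ) * s ^ (Fintype.card ι * A) *
      Real.exp (2 * (s * R * Δ)) * M := by
  classical
  generalize hn : Fintype.card ι * A = n
  obtain ⟨σ⟩ : Nonempty (ι × Fin A ≃ Fin n) :=
    ⟨Fintype.equivFinOfCardEq (by rw [Fintype.card_prod, Fintype.card_fin, hn])⟩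
  set u : ℕ → ℂ := fun k => if h : k < n then w (σ.symm ⟨k, h⟩).1 else 0 with hudef
  have hu : ∀ k, ‖u k‖ ≤ Δ := fun k => by
    simp only [hudef]
    split_ifs
    · exact hw _
    · simpa using hΔ
  have hnodes : ∏ i, (X - C (w i)) ^ A = newtonPoly u n := by
    rw [FA.GelfondCubic.newtonPoly, ← Fin.prod_univ_eq_prod_range (fun k => X - C (u k)) n,
      ← σ.prod_comp, Fintype.prod_prod_type]
    refine prod_congr rfl fun i _ => ?_
    simp [hudef]
  have hM0 : 0 ≤ M := (norm_nonneg _).trans (hM 0 (by simpa using hR.le))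
  have hμ : ∀ l, ‖moment c w (X ^ l)‖ ≤ (l ! : ℝ) * M / R ^ l := fun l => by
    rw [← iteratedDeriv_expPolyM_zero]
    exact Complex.norm_iteratedDeriv_le_of_forall_mem_sphere_norm_le l hR
      (differentiable_expPolyM c w).diffContOnCl
      fun x hx => hM x (by rw [mem_sphere_zero_iff_norm] at hx; exact hx.le)
  have hmom : ∀ k, moment c w (X ^ k) = ∑ j ∈ range n, newtonCoord u k j *
      ∑ l ∈ range (j + 1), (newtonPoly u j).coeff l * moment c w (X ^ l) := fun k => by
    have h := moment_eq_zero_of_dvd c w (hnodes ▸ dvd_X_pow_sub_newton u n k)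
    rw [sub_eq_add_neg, ← neg_one_mul, ← map_one C, ← map_neg, moment_add, moment_C_mul,
      neg_one_mul, ← sub_eq_add_neg, sub_eq_zero] at h
    rw [h, moment_sum]
    refine sum_congr rfl fun j _ => ?_
    rw [moment_C_mul]
    conv_lhs => rw [(newtonPoly u j).as_sum_range_C_mul_X_pow'
      (Nat.lt_succ_of_le (FA.GelfondCubic.natDegree_newtonPoly_le u j)), moment_sum]
    simp only [moment_C_mul]
  refine le_of_tendsto (hasSum_expPolyM c w z).tendsto_sum_nat.norm
    (Filter.Eventually.of_forall fun K => ?_)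
  rw [show ∑ k ∈ range K, z ^ k / (k ! : ℂ) * moment c w (X ^ k) =
      ∑ j ∈ range n, (∑ k ∈ range K, z ^ k / (k ! : ℂ) * newtonCoord u k j) *
        ∑ l ∈ range (j + 1), (newtonPoly u j).coeff l * moment c w (X ^ l) by
    rw [sum_congr rfl fun k _ => by rw [hmom k, mul_sum], sum_comm]
    exact sum_congr rfl fun j _ => by
      rw [sum_mul]; exact sum_congr rfl fun k _ => by ring]
  refine (norm_sum_le _ _).trans ((sum_le_card_nsmul (range n) _
    (s ^ n * Real.exp (2 * (s * R * Δ)) * M) fun j hj => ?_).trans_eq ?_)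
  swap
  · rw [card_range, nsmul_eq_mul]; ring
  rw [norm_mul]
  have hB : ‖∑ l ∈ range (j + 1), (newtonPoly u j).coeff l * moment c w (X ^ l)‖ ≤
      ∑ l ∈ range (j + 1), (j.choose l : ℝ) * Δ ^ (j - l) * ((l ! : ℝ) * M / R ^ l) := by
    refine (norm_sum_le _ _).trans (sum_le_sum fun l _ => ?_)
    rw [norm_mul]
    exact mul_le_mul (FA.GelfondCubic.norm_coeff_newtonPoly_le hu j l) (hμ l) (norm_nonneg _)
      (by positivity)
  refine (mul_le_mul (FA.GelfondCubic.norm_sum_newtonCoord_le hu hz j K) hB (norm_nonneg _)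
    (by positivity)).trans ?_
  rw [mul_right_comm]
  refine (mul_le_mul_of_nonneg_right (FA.GelfondCubic.sum_moment_bound_le hΔ hR hs hM0
    (mem_range.1 hj).le) (Real.exp_pos _).le).trans_eq ?_
  rw [two_mul (s * R * Δ), Real.exp_add]
  ring

/-- Vanishing moments leave no coefficient. -/
theorem eq_zero_of_moments (c : ι × Fin A → ℂ) (w : ι → ℂ) (hw : Function.Injective w)
    (h : ∀ k : ℕ, moment c w (X ^ k) = 0) : c = 0 := by
  classical
  have hall : ∀ g : ℂ[X], moment c w g = 0 := fun g => by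
    rw [g.as_sum_range_C_mul_X_pow, moment_sum]
    exact sum_eq_zero fun k _ => by rw [moment_C_mul, h, mul_zero]
  by_contra hne
  obtain ⟨x₀, hx₀⟩ : ∃ x, c x ≠ 0 := by
    by_contra! h0; exact hne (funext h0)
  set i := x₀.1 with hi
  obtain ⟨a, ha, hamax⟩ := exists_max_image (univ.filter fun a : Fin A => c (i, a) ≠ 0) id
    ⟨x₀.2, mem_filter.2 ⟨mem_univ _, hx₀⟩⟩
  set Q : ℂ[X] := ∏ j ∈ univ.erase i, (X - C (w j)) ^ A with hQ
  have h0 := hall ((X - C (w i)) ^ (a : ℕ) * Q)
  rw [moment, sum_eq_single (i, a) (fun x _ hx => ?_) (fun h => absurd (mem_univ _) h)] at h0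
  · rw [eval_iterate_derivative, taylor_mul, taylor_pow, map_sub, taylor_X, taylor_C,
      add_sub_cancel_right, coeff_X_pow_mul', if_pos le_rfl, Nat.sub_self, taylor_coeff_zero] at h0
    refine (mem_filter.1 ha).2 ((mul_eq_zero.1 h0).resolve_right (mul_ne_zero
      (Nat.cast_ne_zero.2 (Nat.factorial_ne_zero _)) ?_))
    rw [hQ, eval_prod]
    refine prod_ne_zero_iff.2 fun j hj => ?_
    rw [eval_pow, eval_sub, eval_X, eval_C]
    exact pow_ne_zero _ (sub_ne_zero.2 fun e => (mem_erase.1 hj).1 (hw e).symm)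
  · obtain ⟨j, b⟩ := x
    rcases eq_or_ne j i with rfl | hj
    · by_cases hc : c (i, b) = 0
      · rw [hc, zero_mul]
      · have hb : b < a := lt_of_le_of_ne (hamax b (mem_filter.2 ⟨mem_univ _, hc⟩))
          fun e => hx (by rw [e])
        rw [eval_iterate_derivative, coeff_taylor_eq_zero (dvd_mul_right _ _) hb, mul_zero,
          mul_zero]
    · rw [eval_iterate_derivative, coeff_taylor_eq_zero ((dvd_prod_of_mem
        (fun j => (X - C (w j)) ^ A) (mem_erase.2 ⟨hj, mem_univ _⟩)).trans (dvd_mul_left _ _))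
        b.isLt, mul_zero, mul_zero]

/-- **The zero estimate.** -/
theorem zero_estimate_poly (c : ι × Fin A → ℂ) (w : ι → ℂ) (hw : Function.Injective w)
    (hc : c ≠ 0) {Δ R : ℝ} (hΔ : 0 ≤ Δ) (hwb : ∀ i, ‖w i‖ ≤ Δ) (hR : 0 < R) (Z : Finset ℂ)
    (hZ : ∀ z ∈ Z, ‖z‖ ≤ R) {m : ℕ}
    (hzero : ∀ z ∈ Z, ∀ k < m, iteratedDeriv k (expPolyM c w) z = 0) :
    (4 : ℝ) ^ (m * Z.card) ≤ (Fintype.card ι * A : ℕ) * 9 ^ (Fintype.card ι * A) *
      Real.exp (18 * R * Δ) := by
  set f := expPolyM c w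
  obtain ⟨z₀, hz₀, hmax⟩ := (isCompact_closedBall (0 : ℂ) R).exists_isMaxOn
    ⟨0, Metric.mem_closedBall_self hR.le⟩
    (differentiable_expPolyM c w).continuous.norm.continuousOn
  set M := ‖f z₀‖ with hMdef
  have hM : ∀ z : ℂ, ‖z‖ ≤ R → ‖f z‖ ≤ M := fun z hz => hmax (mem_closedBall_zero_iff.2 hz)
  have hMpos : 0 < M := by
    refine (norm_nonneg _).lt_of_ne fun h0 => hc (eq_zero_of_moments c w hw fun k => ?_)
    have h := Complex.norm_iteratedDeriv_le_of_forall_mem_sphere_norm_le k hR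
      (differentiable_expPolyM c w).diffContOnCl
      fun x hx => hM x (by rw [mem_sphere_zero_iff_norm] at hx; exact hx.le)
    rw [iteratedDeriv_expPolyM_zero] at h
    rwa [show M = 0 from h0.symm, mul_zero, zero_div, norm_le_zero_iff] at h
  have hgrow := fun z hz => norm_expPolyM_le_growth c w hwb hΔ hR
    (show (1 : ℝ) ≤ 9 by norm_num) hM (z := z) hz
  have h := FA.GelfondCubic.norm_le_of_zeros (differentiable_expPolyM c w) Z m
    (show R < 9 * R by linarith) hR.le hZ hzero hgrow (mem_closedBall_zero_iff.1 hz₀)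
  rw [show 2 * R / (9 * R - R) = (1 / 4 : ℝ) by field_simp; norm_num, one_div, inv_pow,
    show 2 * (9 * R * Δ) = 18 * R * Δ by ring, ← div_eq_mul_inv, le_div_iff₀ (by positivity),
    mul_comm M] at h
  exact le_of_mul_le_mul_right h hMpos

end FA.BrownawellWaldschmidt

end
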