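import Fermat.Agent.BrownawellWaldschmidt.Forms
import Fermat.Agent.BrownawellWaldschmidt.ZeroEstimate
import Fermat.Agent.GelfondCubic.Auxiliary
import Fermat.Agent.GelfondCubic.Parameters

/-!
# The auxiliary function

With `k = slowPar N` the parameters are `parA = N ² k` for the powers of `z`, `parL = N k ²` and
`parL' = N` for the frequencies, `parS = N k` for the points; there are `n = N ⁴ k ³` functions.
Siegel's lemma gives a vanishing of order `ordLow` at the points, and the zero estimate a nonzero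
derivative of order below `ordHigh`.
-/

set_option autoImplicit false

noncomputable section

open Finset Polynomial Matrix

namespace FA.BrownawellWaldschmidt

open FA.GelfondCubic (slowPar one_le_of_slowPar len exists_small_solution aeval_ne_zero Acts)

/-- The powers of `z`. -/
def parA (N : ℕ) : ℕ := N ^ 2 * slowPar N

/-- The frequencies with algebraic values. -/
def parL (N : ℕ) : ℕ := N * slowPar N ^ 2

/-- The other frequencies. -/
def parL' (N : ℕ) : ℕ := N

/-- The points. -/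
def parS (N : ℕ) : ℕ := N * slowPar N

/-- The functions. -/
abbrev FunIndex (N : ℕ) : Type := (Fin (parL N) × Fin (parL' N)) × Fin (parA N)

/-- The points. -/
abbrev PointIndex (N : ℕ) : Type := Fin (parS N) × Fin (parS N)

/-- The order of the nonzero value. -/
def ordHigh (N : ℕ) : ℕ := 4 * parA N

theorem card_funIndex (N : ℕ) : Fintype.card (FunIndex N) = N ^ 4 * slowPar N ^ 3 := by
  rw [Fintype.card_eq_nat_card]
  simp only [Nat.card_prod, Nat.card_fin, parL, parL', parA]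
  ring

theorem par_pos {N : ℕ} (hk : 1 ≤ slowPar N) :
    1 ≤ parA N ∧ 1 ≤ parL N ∧ 1 ≤ parL' N ∧ 1 ≤ parS N := by
  obtain ⟨hN, -⟩ := one_le_of_slowPar hk
  exact ⟨Nat.mul_pos (Nat.pow_pos hN) hk, Nat.mul_pos hN (Nat.pow_pos hk), hN, Nat.mul_pos hN hk⟩

variable {θ : ℂ} {x y : Fin 2 → ℂ} (D : Data θ x y) (N : ℕ)

/-- The order of vanishing. -/
def ordLow : ℕ := parA N / (4 * D.ν)

/-- The common factor of the `t`-th derivatives. -/
def scaleAt (t : ℕ) : ℂ := scale D (parA N) (parL N) (parL' N) (parS N) (parS N) t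

/-- The derivative of the auxiliary function at a point, up to nothing. -/
def valueSum (p : FunIndex N → ℤ[X]) (t : ℕ) (l : PointIndex N) : ℂ :=
  ∑ a, aeval θ (p a) *
    (derivPoly t a.2 (lin y l) (lin x a.1) * Complex.exp (lin x a.1 * lin y l))

/-- The coefficients of the auxiliary function. -/
def auxCoeff (θ : ℂ) {N : ℕ} (p : FunIndex N → ℤ[X]) : FunIndex N → ℂ := fun a => aeval θ (p a)

theorem iteratedDeriv_aux (p : FunIndex N → ℤ[X]) (t : ℕ) (l : PointIndex N) :
    iteratedDeriv t (expPolyM (auxCoeff θ p) fun m : Fin (parL N) × Fin (parL' N) => lin x m)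
      (lin y l) = valueSum (θ := θ) (x := x) (y := y) N p t l := by
  rw [iteratedDeriv_expPolyM]
  rfl

/-- The matrix of the derivative. -/
def sumMat (p : FunIndex N → ℤ[X]) (t : ℕ) (l : PointIndex N) :
    Matrix (Fin D.ν) (Fin D.ν) ℤ[X] :=
  ∑ a, p a • valueMat D t a l

theorem acts_sumMat (p : FunIndex N → ℤ[X]) (t : ℕ) (l : PointIndex N) :
    Acts θ D.w (sumMat D N p t l)
      (scaleAt D N t * valueSum (θ := θ) (x := x) (y := y) N p t l) := by
  rw [valueSum, mul_sum]
  refine FA.GelfondCubic.acts_sum _ _ _ fun a _ => ?_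
  rw [mul_left_comm]
  exact (acts_valueMat D t a l).smul (p a)

theorem scaleAt_ne_zero (hθ : Transcendental ℚ θ) (t : ℕ) : scaleAt D N t ≠ 0 :=
  mul_ne_zero (pow_ne_zero _ (aeval_ne_zero hθ D.hq)) (pow_ne_zero _ (Int.cast_ne_zero.2 D.he))

/-- **The auxiliary polynomials.** -/
theorem exists_aux (hθ : Transcendental ℚ θ) (hk : 1 ≤ slowPar N) (hlow : 1 ≤ ordLow D N)
    {d : ℕ} {B : ℝ} (hB : 1 ≤ B)
    (hsmall : ∀ t ≤ ordHigh N, ∀ (a : FunIndex N) (l : PointIndex N),
      FA.GelfondCubic.Small (valueMat D t a l) d B) :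
    ∃ p : FunIndex N → ℤ[X], p ≠ 0 ∧ (∀ a, (p a).natDegree ≤ d) ∧
      (∀ a, len (p a) ≤ (d + 1 : ℕ) * ((N ^ 4 * slowPar N ^ 3 * (d + 1) : ℕ) * B)) ∧
      ∀ t < ordLow D N, ∀ l, valueSum (θ := θ) (x := x) (y := y) N p t l = 0 := by
  obtain ⟨hA, hL, hL', hS⟩ := par_pos hk
  have : Nonempty (Fin (parS N)) := ⟨⟨0, hS⟩⟩
  have : Nonempty (Fin (parL N)) := ⟨⟨0, hL⟩⟩
  have : Nonempty (Fin (parL' N)) := ⟨⟨0, hL'⟩⟩
  have : Nonempty (Fin (parA N)) := ⟨⟨0, hA⟩⟩
  have : Nonempty (Fin (ordLow D N)) := ⟨⟨0, hlow⟩⟩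
  have : Nonempty (Fin D.ν) := ⟨⟨0, D.hν⟩⟩
  set i₀ : Fin D.ν := ⟨0, D.hν⟩
  have hle : ordLow D N ≤ ordHigh N :=
    (Nat.div_le_self _ _).trans (Nat.le_mul_of_pos_left _ (by norm_num))
  have hcount : 2 * (Fintype.card (Fin (ordLow D N) × PointIndex N × Fin D.ν) * (d + d + 1)) ≤
      Fintype.card (FunIndex N) * (d + 1) := by
    rw [card_funIndex]
    simp only [Fintype.card_prod, Fintype.card_fin]
    have h4 : ordLow D N * (4 * D.ν) ≤ parA N := Nat.div_mul_le_self _ _
    calc 2 * (ordLow D N * (parS N * parS N * D.ν) * (d + d + 1))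
        ≤ 2 * (ordLow D N * (parS N * parS N * D.ν) * (2 * (d + 1))) := by gcongr; omega
      _ = ordLow D N * (4 * D.ν) * (parS N * parS N) * (d + 1) := by ring
      _ ≤ parA N * (parS N * parS N) * (d + 1) := by gcongr
      _ = N ^ 4 * slowPar N ^ 3 * (d + 1) := by rw [parA, parS]; ring
  obtain ⟨p, hp0, hpd, hpl, hp⟩ := exists_small_solution
    (fun (e : Fin (ordLow D N) × PointIndex N × Fin D.ν) a => valueMat D e.1 a e.2.1 i₀ e.2.2) hB
    (fun e a => (hsmall e.1 (e.1.2.le.trans hle) a e.2.1 i₀ e.2.2).1)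
    (fun e a => (hsmall e.1 (e.1.2.le.trans hle) a e.2.1 i₀ e.2.2).2) hcount
  rw [card_funIndex] at hpl
  refine ⟨p, hp0, hpd, hpl, fun t ht l => ?_⟩
  have hrow : ∀ j, sumMat D N p t l i₀ j = 0 := fun j => by
    simp only [sumMat, Matrix.sum_apply, Matrix.smul_apply, smul_eq_mul]
    rw [← hp (⟨t, ht⟩, l, j)]
    exact sum_congr rfl fun a _ => mul_comm _ _
  have h := congrFun (acts_sumMat D N p t l) i₀
  rw [mulVec, dotProduct, sum_eq_zero fun j _ => by simp [hrow j], Pi.smul_apply, smul_eq_mul,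
    eq_comm, mul_eq_zero, mul_eq_zero] at h
  rcases h with (h | h) | h
  · exact absurd h (scaleAt_ne_zero D N hθ t)
  · exact h
  · exact absurd h (D.hw i₀)

theorem lin_injective {u : Fin 2 → ℂ} (hu : LinearIndependent ℚ u) {A B : ℕ} :
    Function.Injective (lin u : Fin A × Fin B → ℂ) := fun m m' h => by
  have h0 := Fintype.linearIndependent_iff.1 hu
    ![((m.1 : ℕ) : ℚ) - (m'.1 : ℕ), ((m.2 : ℕ) : ℚ) - (m'.2 : ℕ)] (by
      simp only [lin] at h
      simp only [Fin.sum_univ_two, Rat.smul_def, Matrix.cons_val_zero, Matrix.cons_val_one]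
      push_cast
      linear_combination h)
  have h1 := h0 0
  have h2 := h0 1
  simp only [Matrix.cons_val_zero, Matrix.cons_val_one, sub_eq_zero, Nat.cast_inj] at h1 h2
  exact Prod.ext (Fin.ext h1) (Fin.ext h2)

/-- The sum of the norms of the two numbers, plus one. -/
def linSize (u : Fin 2 → ℂ) : ℝ := 1 + ‖u 0‖ + ‖u 1‖

theorem norm_lin_le (u : Fin 2 → ℂ) {A B H : ℕ} (hA : A ≤ H) (hB : B ≤ H) (m : Fin A × Fin B) :
    ‖lin u m‖ ≤ linSize u * H := by
  refine (norm_add_le _ _).trans ?_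
  rw [norm_mul, norm_mul, Complex.norm_natCast, Complex.norm_natCast, linSize]
  have h1 : ((m.1 : ℕ) : ℝ) ≤ H := Nat.cast_le.2 (m.1.isLt.le.trans hA)
  have h2 : ((m.2 : ℕ) : ℝ) ≤ H := Nat.cast_le.2 (m.2.isLt.le.trans hB)
  nlinarith [mul_le_mul_of_nonneg_right h1 (norm_nonneg (u 0)),
    mul_le_mul_of_nonneg_right h2 (norm_nonneg (u 1)), (Nat.cast_nonneg H : (0 : ℝ) ≤ H)]

theorem one_le_linSize (u : Fin 2 → ℂ) : 1 ≤ linSize u := by
  unfold linSize; linarith [norm_nonneg (u 0), norm_nonneg (u 1)]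

theorem parL'_le_parL {N : ℕ} (hk : 1 ≤ slowPar N) : parL' N ≤ parL N :=
  Nat.le_mul_of_pos_right N (Nat.pow_pos hk)

/-- **A nonzero value.** -/
theorem exists_value_ne_zero (hθ : Transcendental ℚ θ) (hx : LinearIndependent ℚ x)
    (hy : LinearIndependent ℚ y) (hk : 1 ≤ slowPar N)
    (hbig : 18 * linSize x * linSize y ≤ (N : ℝ) ^ 2) {p : FunIndex N → ℤ[X]} (hp : p ≠ 0) :
    ∃ t < ordHigh N, ∃ l, valueSum (θ := θ) (x := x) (y := y) N p t l ≠ 0 := by
  classical
  by_contra! hall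
  obtain ⟨hA, hL, hL', hS⟩ := par_pos hk
  have hxs := one_le_linSize x
  have hys := one_le_linSize y
  set R := linSize y * parS N with hR
  have hR0 : 0 < R := mul_pos (by linarith) (by exact_mod_cast hS)
  have h := zero_estimate_poly (auxCoeff θ p)
    (fun m : Fin (parL N) × Fin (parL' N) => lin x m) (lin_injective hx)
    (fun e => hp (funext fun a => by
      by_contra hne
      exact aeval_ne_zero hθ hne (congrFun e a)))
    (Δ := linSize x * parL N) (R := R) (by positivity)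
    (fun m => norm_lin_le x le_rfl (parL'_le_parL hk) m)
    hR0 (univ.image (lin y : PointIndex N → ℂ))
    (fun z hz => by
      obtain ⟨l, -, rfl⟩ := mem_image.1 hz
      exact norm_lin_le y le_rfl le_rfl l)
    (m := ordHigh N) fun z hz t ht => by
      obtain ⟨l, -, rfl⟩ := mem_image.1 hz
      rw [iteratedDeriv_aux, hall t ht l]
  have hcF : Fintype.card (Fin (parL N) × Fin (parL' N)) * parA N = N ^ 4 * slowPar N ^ 3 := by
    rw [← card_funIndex, Fintype.card_eq_nat_card, Fintype.card_eq_nat_card]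
    simp only [Nat.card_prod, Nat.card_fin]
  rw [hcF, card_image_of_injective _ (lin_injective hy), card_univ, Fintype.card_prod,
    Fintype.card_fin] at h
  set n := N ^ 4 * slowPar N ^ 3 with hn
  have hn0 : 0 < n := Nat.mul_pos (Nat.pow_pos hL') (Nat.pow_pos hk)
  have hM : ordHigh N * (parS N * parS N) = 4 * n := by
    rw [ordHigh, parA, parS, hn]; ring
  rw [hM] at h
  have hexp : Real.exp (18 * R * (linSize x * parL N)) ≤ 3 ^ n := by
    refine (Real.exp_le_exp.2 (?_ : _ ≤ (n : ℝ) * 1)).trans ?_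
    · rw [hR, parS, parL, hn, mul_one]
      push_cast
      calc _ = 18 * linSize x * linSize y * ((N : ℝ) ^ 2 * (slowPar N : ℝ) ^ 3) := by ring
        _ ≤ (N : ℝ) ^ 2 * ((N : ℝ) ^ 2 * (slowPar N : ℝ) ^ 3) :=
            mul_le_mul_of_nonneg_right hbig (by positivity)
        _ = _ := by ring
    · rw [Real.exp_nat_mul]
      exact pow_le_pow_left₀ (Real.exp_pos _).le Real.exp_one_lt_three.le _
  have hlt : (n : ℝ) * 9 ^ n * (3 : ℝ) ^ n < (4 : ℝ) ^ (4 * n) := by
    calc (n : ℝ) * 9 ^ n * (3 : ℝ) ^ n ≤ 2 ^ n * 9 ^ n * 3 ^ n := by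
          gcongr
          exact_mod_cast (Nat.lt_two_pow_self).le
      _ < (4 : ℝ) ^ (4 * n) := by
          rw [pow_mul (4 : ℝ) 4 n, ← mul_pow, ← mul_pow]
          exact pow_lt_pow_left₀ (by norm_num) (by norm_num) hn0.ne'
  exact absurd (h.trans (mul_le_mul_of_nonneg_left hexp (by positivity))) hlt.not_ge

/-- **Its size.** -/
theorem norm_valueSum_le (hy : LinearIndependent ℚ y) (hk : 1 ≤ slowPar N)
    (hr : 3 * (linSize y + 1) * slowPar N ≤ N)
    {p : FunIndex N → ℤ[X]} {P : ℝ} (hP : ∀ a, ‖aeval θ (p a)‖ ≤ P)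
    (hzero : ∀ t < ordLow D N, ∀ l, valueSum (θ := θ) (x := x) (y := y) N p t l = 0)
    (t : ℕ) (l : PointIndex N) :
    ‖valueSum (θ := θ) (x := x) (y := y) N p t l‖ ≤ t.factorial *
      ((N ^ 4 * slowPar N ^ 3 : ℕ) * (P * ((N : ℝ) ^ 3) ^ parA N *
          Real.exp (linSize x * (parL N : ℝ) * (N : ℝ) ^ 3)) *
        ((2 : ℝ) ^ Nat.log 2 N)⁻¹ ^ (ordLow D N * (parS N * parS N))) := by
  classical
  obtain ⟨hN, -⟩ := one_le_of_slowPar hk
  have hN1 : (1 : ℝ) ≤ N := by exact_mod_cast hN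
  have hk1 : (1 : ℝ) ≤ slowPar N := by exact_mod_cast hk
  have hys := one_le_linSize y
  set w : Fin (parL N) × Fin (parL' N) → ℂ := fun m => lin x m
  set r := linSize y * parS N + 1 with hr'
  set R := (N : ℝ) ^ 3 with hR
  have hS : (parS N : ℝ) = N * slowPar N := by rw [parS]; push_cast; ring
  have hrb : r * (2 * (N : ℝ) + 1) ≤ R := by
    have h1 : r ≤ (linSize y + 1) * ((N : ℝ) * slowPar N) := by
      rw [hr', hS, add_mul, one_mul]
      exact add_le_add le_rfl (one_le_mul_of_one_le_of_one_le hN1 hk1)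
    calc r * (2 * (N : ℝ) + 1) ≤ (linSize y + 1) * ((N : ℝ) * slowPar N) * (3 * N) :=
          mul_le_mul h1 (by linarith) (by positivity) (by positivity)
      _ = 3 * (linSize y + 1) * slowPar N * (N : ℝ) ^ 2 := by ring
      _ ≤ (N : ℝ) * (N : ℝ) ^ 2 := mul_le_mul_of_nonneg_right hr (by positivity)
      _ = R := by rw [hR]; ring
  have hr0 : 0 < r := by positivity
  have hrR : r < R := lt_of_lt_of_le (lt_mul_of_one_lt_right hr0 (by linarith)) hrb
  have hq : 2 * r / (R - r) ≤ ((2 : ℝ) ^ Nat.log 2 N)⁻¹ := by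
    have h2 : (2 : ℝ) ^ Nat.log 2 N ≤ N := by exact_mod_cast Nat.pow_log_le_self 2 (by omega)
    rw [div_le_iff₀ (by linarith), inv_mul_eq_div, le_div_iff₀ (by positivity)]
    nlinarith [mul_le_mul_of_nonneg_left h2 hr0.le]
  have hB : ∀ z : ℂ, ‖z‖ ≤ R → ‖expPolyM (auxCoeff θ p) w z‖ ≤
      (N ^ 4 * slowPar N ^ 3 : ℕ) * (P * R ^ parA N *
        Real.exp (linSize x * (parL N : ℝ) * R)) := fun z hz => by
    refine (norm_expPolyM_le (auxCoeff θ p) w hP (Δ := linSize x * parL N)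
      (fun m => norm_lin_le x le_rfl (parL'_le_parL hk) m) (one_le_pow₀ hN1) hz).trans_eq ?_
    rw [← card_funIndex]
    simp only [Fintype.card_prod, Fintype.card_fin]
    push_cast
    ring
  set Z := (univ : Finset (PointIndex N)).image (lin y)
  have hcard : Z.card = parS N * parS N := by
    rw [card_image_of_injective _ (lin_injective hy), card_univ, Fintype.card_prod,
      Fintype.card_fin]
  have hbound : ∀ z : ℂ, ‖z‖ ≤ r → ‖expPolyM (auxCoeff θ p) w z‖ ≤
      (N ^ 4 * slowPar N ^ 3 : ℕ) * (P * R ^ parA N *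
        Real.exp (linSize x * (parL N : ℝ) * R)) *
        ((2 : ℝ) ^ Nat.log 2 N)⁻¹ ^ (ordLow D N * (parS N * parS N)) := fun z hz => by
    refine (FA.GelfondCubic.norm_le_of_zeros (differentiable_expPolyM _ w) Z (ordLow D N) hrR
      hr0.le (fun u hu => ?_) (fun u hu s hs => ?_) hB hz).trans ?_
    · obtain ⟨l', -, rfl⟩ := mem_image.1 hu
      exact (norm_lin_le y le_rfl le_rfl l').trans (le_add_of_nonneg_right zero_le_one)
    · obtain ⟨l', -, rfl⟩ := mem_image.1 hu
      rw [iteratedDeriv_aux, hzero s hs l']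
    · rw [hcard]
      exact mul_le_mul_of_nonneg_left
        (pow_le_pow_left₀ (div_nonneg (by positivity) (by linarith)) hq _)
        ((norm_nonneg _).trans (hB 0 (by simp [hR])))
  have hder := Complex.norm_iteratedDeriv_le_of_forall_mem_sphere_norm_le t one_pos
    (differentiable_expPolyM (auxCoeff θ p) w).diffContOnCl fun z hz => hbound z (by
      rw [mem_sphere_iff_norm] at hz
      have := norm_le_norm_add_norm_sub' z (lin y l)
      have := norm_lin_le y (le_refl (parS N)) le_rfl l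
      rw [hz] at *
      linarith)
  rw [iteratedDeriv_aux, one_pow, div_one] at hder
  exact hder

end FA.BrownawellWaldschmidt

end
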