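import Fermat.Agent.GelfondCubic.Forms
import Mathlib.RingTheory.AlgebraTower
import Mathlib.FieldTheory.IntermediateField.Algebraic

/-!
# A basis on which algebraic numbers have constant matrices

A `ℚ`-basis of the number field of algebraic numbers stays independent over `ℚ(θ)` for
transcendental `θ`; times a basis of the whole field over that extension it gives a basis on which
these numbers act through integral matrices of degree `0`.
-/

set_option autoImplicit false

noncomputable section

open Finset Polynomial Matrix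
open scoped IntermediateField

namespace FA.BrownawellWaldschmidt

open FA.GelfondCubic (Acts Small len exists_int_num aeval_ne_zero)

theorem transcendental_over {θ : ℂ} (hθ : Transcendental ℚ θ) (F : IntermediateField ℚ ℂ)
    [FiniteDimensional ℚ F] : Transcendental F θ := fun h =>
  hθ (isIntegral_trans (R := ℚ) (A := F) θ h.isIntegral).isAlgebraic

theorem eq_zero_of_sum_mul {θ : ℂ} (hθ : Transcendental ℚ θ) (F : IntermediateField ℚ ℂ)
    [FiniteDimensional ℚ F] {n : ℕ} (u : Module.Basis (Fin n) ℚ F) (p : Fin n → ℤ[X])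
    (h : ∑ k, aeval θ (p k) * (u k : ℂ) = 0) : p = 0 := by
  set P : F[X] := ∑ k, C (u k) * (p k).map (algebraMap ℤ F) with hP
  have hPθ : aeval θ P = 0 := by
    rw [hP, map_sum, ← h]
    refine sum_congr rfl fun k _ => ?_
    rw [map_mul, aeval_C, aeval_map_algebraMap, mul_comm]
    rfl
  have hP0 : P = 0 := by
    by_contra hne
    exact transcendental_over hθ F ⟨P, hne, hPθ⟩
  funext k
  ext j
  have hj : ∑ i, (((p i).coeff j : ℤ) : ℚ) • u i = 0 := by
    have h1 := congrArg (fun Q => Q.coeff j) hP0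
    simp only [hP, finsetSum_coeff, coeff_C_mul, coeff_map, coeff_zero] at h1
    rw [← h1]
    exact sum_congr rfl fun i _ => by
      rw [Algebra.smul_def, mul_comm, map_intCast, eq_intCast]
  exact_mod_cast Fintype.linearIndependent_iff.1 u.linearIndependent _ hj k

/-- **The matrices.** -/
theorem exists_matrices {θ : ℂ} (hθ : Transcendental ℚ θ) {ι κ : Type*} [Fintype ι] [Fintype κ]
    (g : ι → ℂ) (a : κ → ℂ) (hg : ∀ i, IsIntegral ℚ⟮θ⟯ (g i)) (ha : ∀ j, IsAlgebraic ℚ (a j)) :
    ∃ (ν : ℕ) (w : Fin ν → ℂ) (q : ℤ[X]) (e : ℤ) (M : ι → Matrix (Fin ν) (Fin ν) ℤ[X])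
      (N : κ → Matrix (Fin ν) (Fin ν) ℤ[X]),
      0 < ν ∧ (∀ i, w i ≠ 0) ∧ q ≠ 0 ∧ e ≠ 0 ∧
      (∀ x, Acts θ w (M x) (aeval θ q * g x)) ∧
      (∀ j, Acts θ w (N j) ((e : ℂ) * a j)) ∧
      (∀ j i l, (N j i l).natDegree = 0) ∧
      ∀ c : Fin ν → ℤ[X], ∑ i, aeval θ (c i) * w i = 0 → c = 0 := by
  classical
  set F := IntermediateField.adjoin ℚ (Set.range a) with hF
  have : FiniteDimensional ℚ F := IntermediateField.finiteDimensional_adjoin fun x hx => by
    obtain ⟨j, rfl⟩ := hx
    exact (ha j).isIntegral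
  set u := Module.finBasis ℚ F with hu
  set E := IntermediateField.adjoin ℚ⟮θ⟯ (Set.range a) with hE
  have hFE : ∀ x : F, (x : ℂ) ∈ E := fun x => by
    have h : F ≤ E.restrictScalars ℚ := IntermediateField.adjoin_le_iff.2 fun y hy =>
      IntermediateField.subset_adjoin ℚ⟮θ⟯ (Set.range a) hy
    exact h x.2
  set v : Fin (Module.finrank ℚ F) → E := fun k => ⟨(u k : ℂ), hFE (u k)⟩ with hv
  -- independence over `ℚ(θ)`
  have hli : LinearIndependent ℚ⟮θ⟯ v := by
    refine Fintype.linearIndependent_iff.2 fun e he => ?_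
    choose h f hh hf using fun k => exists_int_num (x := (e k : ℂ)) (θ := θ) (SetLike.coe_mem _)
    have h0 : ∑ k, (e k : ℂ) * (u k : ℂ) = 0 := by
      have h1 := congrArg (fun y : E => (y : ℂ)) he
      simpa [hv, IntermediateField.coe_sum, IntermediateField.smul_def] using h1
    have hp := eq_zero_of_sum_mul hθ F u (fun k => f k * ∏ i ∈ univ.erase k, h i) (by
      rw [show (0 : ℂ) = aeval θ (∏ i, h i) * ∑ k, (e k : ℂ) * (u k : ℂ) by rw [h0, mul_zero],
        mul_sum]
      refine sum_congr rfl fun k _ => ?_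
      rw [map_mul, ← hf k, mul_assoc (e k : ℂ), ← map_mul, mul_prod_erase univ h (mem_univ k)]
      ring)
    intro k
    have hfk : f k = 0 := (mul_eq_zero.1 (congrFun hp k)).resolve_right
      (prod_ne_zero_iff.2 fun i _ => hh i)
    have h2 := hf k
    rw [hfk, map_zero, mul_eq_zero] at h2
    exact Subtype.ext (h2.resolve_right (aeval_ne_zero hθ (hh k)))
  -- they span
  have hspan : ⊤ ≤ Submodule.span ℚ⟮θ⟯ (Set.range v) := by
    intro x _
    have hx : (x : ℂ) ∈ Submodule.span ℚ⟮θ⟯ (Set.range fun k => (u k : ℂ)) := by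
      have h1 : (x : ℂ) ∈ Algebra.adjoin ℚ⟮θ⟯ (Set.range a) := by
        rw [← IntermediateField.adjoin_toSubalgebra_of_isAlgebraic (fun y hy => by
          obtain ⟨j, rfl⟩ := hy
          exact (ha j).isIntegral.tower_top.isAlgebraic)]
        exact x.2
      rw [← Subalgebra.mem_toSubmodule, Algebra.adjoin_eq_span] at h1
      refine (Submodule.span_le.2 fun y hy => ?_) h1
      have hy' : y ∈ F.toSubalgebra.toSubmonoid := (Submonoid.closure_le.2
        (fun z hz => IntermediateField.subset_adjoin ℚ (Set.range a) hz)) hy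
      have h2 := congrArg (fun z : F => (z : ℂ)) (u.sum_repr ⟨y, hy'⟩)
      simp only [IntermediateField.coe_sum, IntermediateField.coe_smul] at h2
      rw [SetLike.mem_coe, ← h2]
      refine Submodule.sum_mem _ fun k _ => ?_
      rw [← algebraMap_smul ℚ⟮θ⟯ (u.repr ⟨y, hy'⟩ k) (u k : ℂ)]
      exact Submodule.smul_mem _ _ (Submodule.subset_span ⟨k, rfl⟩)
    obtain ⟨e, he⟩ := (Submodule.mem_span_range_iff_exists_fun _).1 hx
    refine (Submodule.mem_span_range_iff_exists_fun _).2 ⟨e, Subtype.ext ?_⟩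
    rw [← he]
    simp [hv]
  set bE : Module.Basis (Fin (Module.finrank ℚ F)) ℚ⟮θ⟯ E := Module.Basis.mk hli hspan with hbE
  have : FiniteDimensional ℚ⟮θ⟯ E := Module.Finite.of_basis bE
  set K := IntermediateField.adjoin E (Set.range g) with hK
  have : FiniteDimensional E K := IntermediateField.finiteDimensional_adjoin fun x hx => by
    obtain ⟨i, rfl⟩ := hx
    exact (hg i).tower_top
  set cK := Module.finBasis E K
  set b := (bE.smulTower cK).reindex finProdFinEquiv with hb
  have hgK : ∀ x, g x ∈ K := fun x => IntermediateField.subset_adjoin _ _ ⟨x, rfl⟩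
  have hbval : ∀ k r,
      ((b (finProdFinEquiv (k, r)) : K) : ℂ) = (u k : ℂ) * (cK r : ℂ) := fun k r => by
    show (((bE.smulTower cK).reindex finProdFinEquiv (finProdFinEquiv (k, r)) : K) : ℂ) = _
    rw [Module.Basis.reindex_apply, Equiv.symm_apply_apply, Module.Basis.smulTower_apply,
      hbE, Module.Basis.mk_apply]
    rfl
  -- the generators
  set ee : ι × Fin (Module.finrank ℚ F * Module.finrank E K) ×
      Fin (Module.finrank ℚ F * Module.finrank E K) → ℂ := fun p =>
    ((b.repr (⟨g p.1, hgK p.1⟩ * b p.2.1) p.2.2 : ℚ⟮θ⟯) : ℂ) with hee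
  choose h f hh hf using fun p => exists_int_num (θ := θ) (x := ee p) (SetLike.coe_mem _)
  -- the constants
  have haF : ∀ j, a j ∈ F := fun j => IntermediateField.subset_adjoin _ _ ⟨j, rfl⟩
  set rr : κ × Fin (Module.finrank ℚ F) × Fin (Module.finrank ℚ F) → ℚ := fun p =>
    u.repr (⟨a p.1, haF p.1⟩ * u p.2.1) p.2.2 with hrr
  set e₀ : ℤ := ∏ p, ((rr p).den : ℤ) with he₀
  have hden : ∀ p, ∃ z : ℤ, (z : ℚ) = (e₀ : ℚ) * rr p := fun p => by
    refine ⟨(∏ p' ∈ univ.erase p, ((rr p').den : ℤ)) * (rr p).num, ?_⟩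
    rw [he₀, ← mul_prod_erase univ (fun p => ((rr p).den : ℤ)) (mem_univ p), Int.cast_mul,
      Int.cast_mul, Int.cast_natCast, ← (rr p).mul_den_eq_num]
    ring
  choose z hz using hden
  refine ⟨_, fun i => ((b i : K) : ℂ), ∏ p, h p, e₀,
    fun x => Matrix.of fun i l => f (x, i, l) * ∏ p ∈ univ.erase (x, i, l), h p,
    fun j => Matrix.of fun i l =>
      if (finProdFinEquiv.symm i).2 = (finProdFinEquiv.symm l).2 then
        C (z (j, (finProdFinEquiv.symm i).1, (finProdFinEquiv.symm l).1)) else 0,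
    Nat.mul_pos Module.finrank_pos Module.finrank_pos,
    fun i e => b.ne_zero i (Subtype.ext e), prod_ne_zero_iff.2 fun p _ => hh p,
    prod_ne_zero_iff.2 fun p _ => by exact_mod_cast (rr p).den_nz,
    fun x => funext fun i => ?_, fun j => funext fun i => ?_, fun j i l => ?_, fun c hc => ?_⟩
  · simp only [mulVec, dotProduct, RingHom.mapMatrix_apply, Matrix.map_apply, Matrix.of_apply,
      Pi.smul_apply, smul_eq_mul, AlgHom.toRingHom_eq_coe, RingHom.coe_coe, map_mul, ← hf]
    have hrepr := congrArg (fun y : K => (y : ℂ)) (b.sum_repr (⟨g x, hgK x⟩ * b i))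
    simp only [IntermediateField.coe_sum, IntermediateField.coe_mul] at hrepr
    rw [mul_assoc, ← hrepr, mul_sum]
    refine sum_congr rfl fun l _ => ?_
    rw [mul_assoc (ee _), ← map_mul, mul_prod_erase _ h (mem_univ _)]
    simp only [hee]
    rw [IntermediateField.coe_smul, IntermediateField.smul_def, smul_eq_mul]
    ring
  · obtain ⟨⟨k, r⟩, rfl⟩ := finProdFinEquiv.surjective i
    simp only [mulVec, dotProduct, RingHom.mapMatrix_apply, Matrix.map_apply, Matrix.of_apply,
      Pi.smul_apply, smul_eq_mul]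
    rw [← finProdFinEquiv.sum_comp, Fintype.sum_prod_type]
    simp only [Equiv.symm_apply_apply, apply_ite (aeval θ).toRingHom, map_zero, ite_mul, zero_mul,
      hbval]
    rw [sum_congr rfl fun k' _ => Fintype.sum_ite_eq r _]
    have hrepr := congrArg (fun y : F => (y : ℂ)) (u.sum_repr (⟨a j, haF j⟩ * u k))
    simp only [IntermediateField.coe_sum, IntermediateField.coe_mul, Rat.smul_def,
      SubfieldClass.coe_ratCast] at hrepr
    rw [mul_assoc (e₀ : ℂ), ← mul_assoc (a j), ← hrepr, sum_mul, mul_sum]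
    refine sum_congr rfl fun k' _ => ?_
    have hzc : ((z (j, k, k') : ℤ) : ℂ) =
        (e₀ : ℂ) * ((u.repr (⟨a j, haF j⟩ * u k) k' : ℚ) : ℂ) := by
      have := congrArg (fun t : ℚ => (t : ℂ)) (hz (j, k, k'))
      push_cast at this
      simpa [hrr] using this
    rw [show (aeval θ).toRingHom (C (z (j, k, k'))) = ((z (j, k, k') : ℤ) : ℂ) by simp, hzc]
    ring
  · simp only [Matrix.of_apply]
    split_ifs
    · exact natDegree_C _
    · exact natDegree_zero
  · have hmem : ∀ p : ℤ[X], aeval θ p ∈ ℚ⟮θ⟯ := fun p => by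
      rw [← aeval_map_algebraMap ℚ]
      exact IntermediateField.algebra_adjoin_le_adjoin ℚ _
        (Algebra.adjoin_singleton_eq_range_aeval ℚ θ ▸ ⟨_, rfl⟩)
    have h0 := Fintype.linearIndependent_iff.1 b.linearIndependent
      (fun i => ⟨aeval θ (c i), hmem _⟩) (Subtype.ext (by
        rw [IntermediateField.coe_sum, IntermediateField.coe_zero]
        refine Eq.trans (sum_congr rfl fun i _ => ?_) hc
        rw [IntermediateField.coe_smul, IntermediateField.smul_def, smul_eq_mul]))
    refine funext fun i => ?_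
    by_contra hne
    exact aeval_ne_zero hθ hne (congrArg Subtype.val (h0 i))

end FA.BrownawellWaldschmidt

end
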