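import Fermat.Agent.BrownawellWaldschmidt.Field

/-!
# The matrices of the derivatives

At `p = l y` the `t`-th derivative of `z ^ a exp ((m x) z)` is, up to a common factor, a
combination of products of the fixed matrices; the algebraic values `exp (x 0 y j)` raise no
degree.
-/

set_option autoImplicit false

noncomputable section

open Finset Polynomial Matrix

namespace FA.BrownawellWaldschmidt

open FA.GelfondCubic (Acts Small len len_C acts_sum small_sum)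

/-- The generators: `1`, the `x i`, the `y j` and the `exp (x 1 y j)`. -/
def gen (x y : Fin 2 → ℂ) : Fin 7 → ℂ :=
  ![1, x 0, x 1, y 0, y 1, Complex.exp (x 1 * y 0), Complex.exp (x 1 * y 1)]

/-- The algebraic values: `1` and the `exp (x 0 y j)`. -/
def algGen (x y : Fin 2 → ℂ) : Fin 3 → ℂ :=
  ![1, Complex.exp (x 0 * y 0), Complex.exp (x 0 * y 1)]

/-- The matrices. -/
structure Data (θ : ℂ) (x y : Fin 2 → ℂ) where
  /-- the degree -/
  ν : ℕ
  /-- the basis -/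
  w : Fin ν → ℂ
  /-- the denominator -/
  q : ℤ[X]
  /-- the integral denominator -/
  e : ℤ
  /-- the matrices of the generators -/
  M : Fin 7 → Matrix (Fin ν) (Fin ν) ℤ[X]
  /-- the matrices of the algebraic values -/
  N : Fin 3 → Matrix (Fin ν) (Fin ν) ℤ[X]
  /-- the degree is positive -/
  hν : 0 < ν
  /-- no entry of the basis is zero -/
  hw : ∀ i, w i ≠ 0
  /-- the denominator is not zero -/
  hq : q ≠ 0
  /-- the integral denominator is not zero -/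
  he : e ≠ 0
  /-- the action -/
  act : ∀ i, Acts θ w (M i) (aeval θ q * gen x y i)
  /-- the action of the algebraic values -/
  actN : ∀ j, Acts θ w (N j) ((e : ℂ) * algGen x y j)
  /-- their matrices are constant -/
  degN : ∀ j i l, (N j i l).natDegree = 0
  /-- independence over `ℤ[θ]` -/
  indep : ∀ c : Fin ν → ℤ[X], ∑ i, aeval θ (c i) * w i = 0 → c = 0

/-- The linear form `m₀ u₀ + m₁ u₁`. -/
def lin (u : Fin 2 → ℂ) {A B : ℕ} (m : Fin A × Fin B) : ℂ :=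
  (m.1 : ℕ) * u 0 + (m.2 : ℕ) * u 1

/-- The derivative of order `t` of `z ^ a exp (v z)`, without the exponential. -/
def derivPoly (t a : ℕ) (z v : ℂ) : ℂ :=
  ∑ i ∈ range (t + 1), (t.choose i : ℂ) * (a.descFactorial i : ℂ) * z ^ (a - i) * v ^ (t - i)

variable {θ : ℂ} {x y : Fin 2 → ℂ} (D : Data θ x y)

theorem acts_add {ν : ℕ} {w : Fin ν → ℂ} {M₁ M₂ : Matrix (Fin ν) (Fin ν) ℤ[X]} {s₁ s₂ : ℂ}
    (h₁ : Acts θ w M₁ s₁) (h₂ : Acts θ w M₂ s₂) : Acts θ w (M₁ + M₂) (s₁ + s₂) := by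
  rw [Acts, map_add, add_mulVec, h₁, h₂, add_smul]

/-- `q (m₀ u₀ + m₁ u₁)`. -/
def linMat {A B : ℕ} (i j : Fin 7) (m : Fin A × Fin B) : Matrix (Fin D.ν) (Fin D.ν) ℤ[X] :=
  C ((m.1 : ℕ) : ℤ) • D.M i + C ((m.2 : ℕ) : ℤ) • D.M j

theorem acts_linMat {A B : ℕ} (i j : Fin 7) (u : Fin 2 → ℂ) (hi : gen x y i = u 0)
    (hj : gen x y j = u 1) (m : Fin A × Fin B) :
    Acts θ D.w (linMat D i j m) (aeval θ D.q * lin u m) := by
  have h := acts_add ((D.act i).smul (C ((m.1 : ℕ) : ℤ))) ((D.act j).smul (C ((m.2 : ℕ) : ℤ)))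
  rw [hi, hj, map_natCast, map_natCast, map_natCast, map_natCast] at h
  refine (iff_of_eq (congrArg (Acts θ D.w (linMat D i j m)) ?_)).2 h
  rw [lin]
  ring

/-- The polynomial part. -/
def polyMat {A L L' S S' : ℕ} (t : ℕ) (a : Fin A) (m : Fin L × Fin L') (l : Fin S × Fin S') :
    Matrix (Fin D.ν) (Fin D.ν) ℤ[X] :=
  ∑ i ∈ range (t + 1), C (((t.choose i * (a : ℕ).descFactorial i : ℕ)) : ℤ) •
    (linMat D 3 4 l ^ ((a : ℕ) - i) * linMat D 1 2 m ^ (t - i) *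
      D.M 0 ^ (A + t - ((a : ℕ) - i) - (t - i)))

theorem acts_polyMat {A L L' S S' : ℕ} (t : ℕ) (a : Fin A) (m : Fin L × Fin L')
    (l : Fin S × Fin S') :
    Acts θ D.w (polyMat D t a m l)
      (aeval θ D.q ^ (A + t) * derivPoly t a (lin y l) (lin x m)) := by
  have h := acts_sum (range (t + 1)) _ _ fun i _ =>
    ((((acts_linMat D 3 4 y rfl rfl l).pow ((a : ℕ) - i)).mul
      ((acts_linMat D 1 2 x rfl rfl m).pow (t - i))).mul
      ((D.act 0).pow (A + t - ((a : ℕ) - i) - (t - i)))).smul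
      (C (((t.choose i * (a : ℕ).descFactorial i : ℕ)) : ℤ))
  refine (iff_of_eq (congrArg (Acts θ D.w (polyMat D t a m l)) ?_)).2 h
  rw [derivPoly, mul_sum]
  refine sum_congr rfl fun i _ => ?_
  have ha := a.isLt
  obtain ⟨r, hr⟩ : ∃ r, A + t = ((a : ℕ) - i) + (t - i) + r :=
    ⟨_, (Nat.add_sub_cancel' (by omega)).symm⟩
  rw [show A + t - ((a : ℕ) - i) - (t - i) = r by omega, hr, map_natCast, map_natCast,
    show gen x y 0 = 1 from rfl, mul_one, pow_add, pow_add, mul_pow, mul_pow]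
  push_cast
  ring

/-- The exponential part. -/
def expMat {L L' S S' : ℕ} (m : Fin L × Fin L') (l : Fin S × Fin S') :
    Matrix (Fin D.ν) (Fin D.ν) ℤ[X] :=
  D.M 5 ^ ((m.2 : ℕ) * (l.1 : ℕ)) * D.M 6 ^ ((m.2 : ℕ) * (l.2 : ℕ)) *
      D.M 0 ^ (L' * (S + S') - ((m.2 : ℕ) * (l.1 : ℕ) + (m.2 : ℕ) * (l.2 : ℕ))) *
    (D.N 1 ^ ((m.1 : ℕ) * (l.1 : ℕ)) * D.N 2 ^ ((m.1 : ℕ) * (l.2 : ℕ)) *
      D.N 0 ^ (L * (S + S') - ((m.1 : ℕ) * (l.1 : ℕ) + (m.1 : ℕ) * (l.2 : ℕ))))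

theorem index_le {L S S' : ℕ} (m : Fin L) (l : Fin S × Fin S') :
    (m : ℕ) * (l.1 : ℕ) + (m : ℕ) * (l.2 : ℕ) ≤ L * (S + S') := by
  rw [← mul_add]
  exact Nat.mul_le_mul m.isLt.le (Nat.add_le_add l.1.isLt.le l.2.isLt.le)

theorem acts_expMat {L L' S S' : ℕ} (m : Fin L × Fin L') (l : Fin S × Fin S') :
    Acts θ D.w (expMat D m l) (aeval θ D.q ^ (L' * (S + S')) * (D.e : ℂ) ^ (L * (S + S')) *
      Complex.exp (lin x m * lin y l)) := by
  have h := ((((D.act 5).pow ((m.2 : ℕ) * (l.1 : ℕ))).mul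
      ((D.act 6).pow ((m.2 : ℕ) * (l.2 : ℕ)))).mul
      ((D.act 0).pow (L' * (S + S') - ((m.2 : ℕ) * (l.1 : ℕ) + (m.2 : ℕ) * (l.2 : ℕ))))).mul
    ((((D.actN 1).pow ((m.1 : ℕ) * (l.1 : ℕ))).mul
      ((D.actN 2).pow ((m.1 : ℕ) * (l.2 : ℕ)))).mul
      ((D.actN 0).pow (L * (S + S') - ((m.1 : ℕ) * (l.1 : ℕ) + (m.1 : ℕ) * (l.2 : ℕ)))))
  refine (iff_of_eq (congrArg (Acts θ D.w (expMat D m l)) ?_)).2 h
  obtain ⟨r, hr⟩ := Nat.exists_eq_add_of_le (index_le m.2 l)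
  obtain ⟨s, hs⟩ := Nat.exists_eq_add_of_le (index_le m.1 l)
  rw [hr, hs, Nat.add_sub_cancel_left, Nat.add_sub_cancel_left,
    show gen x y 0 = 1 from rfl, show algGen x y 0 = 1 from rfl,
    show gen x y 5 = Complex.exp (x 1 * y 0) from rfl,
    show gen x y 6 = Complex.exp (x 1 * y 1) from rfl,
    show algGen x y 1 = Complex.exp (x 0 * y 0) from rfl,
    show algGen x y 2 = Complex.exp (x 0 * y 1) from rfl, mul_one, mul_one]
  rw [show lin x m * lin y l =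
    (((m.2 : ℕ) * (l.1 : ℕ) : ℕ) : ℂ) * (x 1 * y 0) +
      (((m.2 : ℕ) * (l.2 : ℕ) : ℕ) : ℂ) * (x 1 * y 1) +
      ((((m.1 : ℕ) * (l.1 : ℕ) : ℕ) : ℂ) * (x 0 * y 0) +
        (((m.1 : ℕ) * (l.2 : ℕ) : ℕ) : ℂ) * (x 0 * y 1)) by simp only [lin]; push_cast; ring,
    Complex.exp_add, Complex.exp_add, Complex.exp_add, Complex.exp_nat_mul, Complex.exp_nat_mul,
    Complex.exp_nat_mul, Complex.exp_nat_mul]
  simp only [mul_pow, pow_add]
  ring

/-- The matrix of the derivative. -/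
def valueMat {A L L' S S' : ℕ} (t : ℕ) (a : (Fin L × Fin L') × Fin A) (l : Fin S × Fin S') :
    Matrix (Fin D.ν) (Fin D.ν) ℤ[X] :=
  polyMat D t a.2 a.1 l * expMat D a.1 l

/-- The common factor. -/
def scale (A L L' S S' t : ℕ) : ℂ :=
  aeval θ D.q ^ (A + t + L' * (S + S')) * (D.e : ℂ) ^ (L * (S + S'))

theorem acts_valueMat {A L L' S S' : ℕ} (t : ℕ) (a : (Fin L × Fin L') × Fin A)
    (l : Fin S × Fin S') :
    Acts θ D.w (valueMat D t a l) (scale D A L L' S S' t *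
      (derivPoly t a.2 (lin y l) (lin x a.1) * Complex.exp (lin x a.1 * lin y l))) := by
  refine (iff_of_eq (congrArg (Acts θ D.w (valueMat D t a l)) ?_)).2
    ((acts_polyMat D t a.2 a.1 l).mul (acts_expMat D a.1 l))
  rw [scale, pow_add]
  ring

theorem choose_mul_descFactorial_le {t a H i : ℕ} (hH : 1 ≤ H) (ha : a ≤ H) (hi : i ≤ t) :
    t.choose i * a.descFactorial i ≤ (2 * H) ^ t :=
  (Nat.mul_le_mul (Nat.choose_le_two_pow t i) (((Nat.descFactorial_le_pow a i).trans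
    (Nat.pow_le_pow_left ha i)).trans (Nat.pow_le_pow_right hH hi))).trans_eq (mul_pow 2 H t).symm

theorem exists_small_valueMat :
    ∃ (d : ℕ) (K : ℝ), 1 ≤ K ∧ ∀ {A L L' S S' : ℕ} (H t : ℕ) (a : (Fin L × Fin L') × Fin A)
      (l : Fin S × Fin S'), 1 ≤ H → A ≤ H → L ≤ H → L' ≤ H → S ≤ H → S' ≤ H →
        Small (valueMat D t a l) (d * (A + t + L' * (S + S')))
          (K ^ (A + t + L' * (S + S') + L * (S + S') + 1) * (H : ℝ) ^ (A + 2 * t)) := by
  set d := univ.sup fun x => univ.sup fun i => univ.sup fun j => (D.M x i j).natDegree with hd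
  set B₀ : ℝ := 1 + ((∑ x, ∑ i, ∑ j, len (D.M x i j)) + ∑ x, ∑ i, ∑ j, len (D.N x i j)) with hB₀
  have hsM : 0 ≤ ∑ x, ∑ i, ∑ j, len (D.M x i j) := sum_nonneg fun _ _ =>
    sum_nonneg fun _ _ => sum_nonneg fun _ _ => FA.GelfondCubic.len_nonneg _
  have hsN : 0 ≤ ∑ x, ∑ i, ∑ j, len (D.N x i j) := sum_nonneg fun _ _ =>
    sum_nonneg fun _ _ => sum_nonneg fun _ _ => FA.GelfondCubic.len_nonneg _
  have hB1 : 1 ≤ B₀ := le_add_of_nonneg_right (add_nonneg hsM hsN)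
  have hentry : ∀ {κ : Type} [Fintype κ] (F : κ → Matrix (Fin D.ν) (Fin D.ν) ℤ[X]) (x : κ)
      (i j : Fin D.ν), len (F x i j) ≤ ∑ x, ∑ i, ∑ j, len (F x i j) := fun F x i j =>
    (single_le_sum (f := fun j => len (F x i j)) (fun _ _ => FA.GelfondCubic.len_nonneg _)
        (mem_univ j)).trans
      ((single_le_sum (f := fun i => ∑ j, len (F x i j))
          (fun _ _ => sum_nonneg fun _ _ => FA.GelfondCubic.len_nonneg _) (mem_univ i)).trans
        (single_le_sum (f := fun x => ∑ i, ∑ j, len (F x i j))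
          (fun _ _ => sum_nonneg fun _ _ => sum_nonneg fun _ _ =>
            FA.GelfondCubic.len_nonneg _) (mem_univ x)))
  have hM : ∀ x, Small (D.M x) d B₀ := fun x i j => by
    refine ⟨?_, by linarith [hentry D.M x i j]⟩
    rw [hd]
    exact le_trans (le_sup (f := fun j => (D.M x i j).natDegree) (mem_univ j))
      (le_trans (le_sup (f := fun i => univ.sup fun j => (D.M x i j).natDegree) (mem_univ i))
        (le_sup (f := fun x => univ.sup fun i => univ.sup fun j => (D.M x i j).natDegree)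
          (mem_univ x)))
  have hN : ∀ x, Small (D.N x) 0 B₀ := fun x i j =>
    ⟨(D.degN x i j).le, by linarith [hentry D.N x i j]⟩
  set n : ℝ := (D.ν : ℝ) with hn
  have hn1 : 1 ≤ n := by rw [hn]; exact_mod_cast D.hν
  set K : ℝ := 8 * n ^ 8 * B₀ with hK
  have hn8 : 1 ≤ n ^ 8 := one_le_pow₀ hn1
  have hK1 : 1 ≤ K := by rw [hK]; nlinarith
  refine ⟨d, K, hK1, fun {A L L' S S'} H t a l hH hA hL hL' hS hS' => ?_⟩
  have hH1 : (1 : ℝ) ≤ H := by exact_mod_cast hH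
  have hlin : ∀ (i j : Fin 7) {P Q : ℕ} (m : Fin P × Fin Q), P ≤ H → Q ≤ H →
      Small (linMat D i j m) d ((H : ℝ) * (2 * B₀)) := fun i j P Q m hP hQ => by
    have hC : ∀ r : ℕ, r ≤ H → len (C (r : ℤ)) ≤ (H : ℝ) := fun r hr => by
      rw [len_C, Int.cast_natCast, Nat.abs_cast]; exact_mod_cast hr
    intro r s
    have h₁ := ((hM i).smul _ (natDegree_C _).le (hC _ (m.1.isLt.le.trans hP))) r s
    have h₂ := ((hM j).smul _ (natDegree_C _).le (hC _ (m.2.isLt.le.trans hQ))) r s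
    refine ⟨(natDegree_add_le _ _).trans (max_le (by simpa using h₁.1) (by simpa using h₂.1)),
      (FA.GelfondCubic.len_add_le _ _).trans ((add_le_add h₁.2 h₂.2).trans_eq (by ring))⟩
  have hterm : ∀ i ∈ range (t + 1), Small
      (C (((t.choose i * (a.2 : ℕ).descFactorial i : ℕ)) : ℤ) •
        (linMat D 3 4 l ^ ((a.2 : ℕ) - i) * linMat D 1 2 a.1 ^ (t - i) *
          D.M 0 ^ (A + t - ((a.2 : ℕ) - i) - (t - i))))
      (d * (A + t)) ((2 * H : ℝ) ^ t * (n ^ 2 * (2 * n * B₀) ^ (A + t) * (H : ℝ) ^ (A + t))) := by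
    intro i hi
    have hi' : i ≤ t := Nat.lt_succ_iff.1 (mem_range.1 hi)
    have ha := a.2.isLt
    obtain ⟨r, hr⟩ : ∃ r, A + t = ((a.2 : ℕ) - i) + (t - i) + r :=
      ⟨_, (Nat.add_sub_cancel' (by omega)).symm⟩
    rw [show A + t - ((a.2 : ℕ) - i) - (t - i) = r by omega]
    refine (((((hlin 3 4 l hS hS').pow ((a.2 : ℕ) - i)).mul
      ((hlin 1 2 a.1 hL hL').pow (t - i))).mul ((hM 0).pow r)).smul _ (natDegree_C _).le
      (B' := (2 * H : ℝ) ^ t) ?_).mono ?_ ?_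
    · rw [len_C, Int.cast_natCast, Nat.abs_cast]
      exact_mod_cast choose_mul_descFactorial_le hH (ha.le.trans hA) hi'
    · rw [hr]; exact le_of_eq (by ring)
    · refine mul_le_mul_of_nonneg_left ?_ (by positivity)
      rw [← hn, hr]
      simp only [pow_add]
      calc n * (n * ((n * (↑H * (2 * B₀))) ^ ((a.2 : ℕ) - i) * (n * (↑H * (2 * B₀))) ^ (t - i)) *
            (n * B₀) ^ r)
          ≤ n * (n * ((n * (↑H * (2 * B₀))) ^ ((a.2 : ℕ) - i) *
              (n * (↑H * (2 * B₀))) ^ (t - i)) * (n * (↑H * (2 * B₀))) ^ r) := by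
            gcongr
            nlinarith
        _ = _ := by simp only [mul_pow]; ring
  have hpoly : Small (polyMat D t a.2 a.1 l) (d * (A + t))
      (n ^ 2 * (8 * n * B₀) ^ (A + t) * (H : ℝ) ^ (A + 2 * t)) := by
    refine (small_sum _ _ hterm).mono le_rfl ?_
    rw [sum_const, card_range, nsmul_eq_mul]
    have h2 : ((t + 1 : ℕ) : ℝ) ≤ 2 ^ t := by exact_mod_cast Nat.lt_two_pow_self (n := t)
    calc ((t + 1 : ℕ) : ℝ) * ((2 * H : ℝ) ^ t * (n ^ 2 * (2 * n * B₀) ^ (A + t) *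
          (H : ℝ) ^ (A + t)))
        ≤ (2 : ℝ) ^ t * ((2 * H : ℝ) ^ t * (n ^ 2 * (2 * n * B₀) ^ (A + t) *
          (H : ℝ) ^ (A + t))) := mul_le_mul_of_nonneg_right h2 (by positivity)
      _ = n ^ 2 * ((4 : ℝ) ^ t * (2 * n * B₀) ^ (A + t)) * (H : ℝ) ^ (A + 2 * t) := by
          rw [show (4 : ℝ) = 2 * 2 by norm_num]
          simp only [mul_pow, pow_add, two_mul t]
          ring
      _ ≤ n ^ 2 * ((4 : ℝ) ^ (A + t) * (2 * n * B₀) ^ (A + t)) * (H : ℝ) ^ (A + 2 * t) := by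
          gcongr
          · norm_num
          · omega
      _ = _ := by rw [← mul_pow]; ring_nf
  have hexp : Small (expMat D a.1 l) (d * (L' * (S + S')))
      (n ^ 5 * (n * B₀) ^ (L' * (S + S') + L * (S + S'))) := by
    refine (((((hM 5).pow _).mul ((hM 6).pow _)).mul ((hM 0).pow _)).mul
      ((((hN 1).pow _).mul ((hN 2).pow _)).mul ((hN 0).pow _))).mono ?_ ?_
    all_goals
      obtain ⟨r, hr⟩ := Nat.exists_eq_add_of_le (index_le a.1.2 l)
      obtain ⟨s, hs⟩ := Nat.exists_eq_add_of_le (index_le a.1.1 l)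
      rw [hr, hs, Nat.add_sub_cancel_left, Nat.add_sub_cancel_left]
    · exact le_of_eq (by ring)
    · rw [← hn]
      refine le_of_eq ?_
      simp only [pow_add]
      ring
  refine (hpoly.mul hexp).mono (le_of_eq (by ring)) ?_
  rw [← hn]
  have h8 : 8 * n * B₀ ≤ K := by
    rw [hK]
    have : n ≤ n ^ 8 := le_self_pow₀ hn1 (by norm_num)
    nlinarith
  have h1 : n * B₀ ≤ K := le_trans (by nlinarith) h8
  have h0 : n ^ 8 ≤ K := by rw [hK]; nlinarith
  set E := L' * (S + S') + L * (S + S') with hE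
  calc n * (n ^ 2 * (8 * n * B₀) ^ (A + t) * (H : ℝ) ^ (A + 2 * t) * (n ^ 5 * (n * B₀) ^ E))
      = n ^ 8 * (8 * n * B₀) ^ (A + t) * (n * B₀) ^ E * (H : ℝ) ^ (A + 2 * t) := by ring
    _ ≤ K * K ^ (A + t) * K ^ E * (H : ℝ) ^ (A + 2 * t) := by gcongr
    _ = K ^ (A + t + L' * (S + S') + L * (S + S') + 1) * (H : ℝ) ^ (A + 2 * t) := by
        rw [mul_comm K, mul_right_comm (K ^ (A + t)) K, ← pow_add, ← pow_succ, hE]
        ring_nf

end FA.BrownawellWaldschmidt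

end
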