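import Fermat.Agent.BrownawellWaldschmidt.SmallPolynomial
import Fermat.Agent.GelfondCubic.Criterion
import Fermat.Agent.Transcendence.HermiteLindemann
import Mathlib.RingTheory.AlgebraicIndependent.AlgebraicClosure
import Mathlib.RingTheory.AlgebraicIndependent.Transcendental

/-!
# The theorem of Brownawell and Waldschmidt

The small polynomials contradict Gelfond's criterion, so the values do not lie in a field of
transcendence degree at most one.
-/

set_option autoImplicit false

noncomputable section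

open Finset Polynomial Filter
open scoped IntermediateField

namespace FA.BrownawellWaldschmidt

open FA.GelfondCubic (slowPar slowPar_le_succ slowPar_succ_le log_succ_le one_le_of_slowPar
  tendsto_slowPar len gelfond_criterion)

theorem unit_growth {N : ℕ} (hk : 1 ≤ slowPar N) :
    degUnit N ≤ degUnit (N + 1) ∧ degUnit (N + 1) ≤ 8 * degUnit N ∧
      htUnit N ≤ htUnit (N + 1) ∧ htUnit (N + 1) ≤ 16 * htUnit N := by
  obtain ⟨hN, hl⟩ := one_le_of_slowPar hk
  have h1 : (slowPar (N + 1) : ℝ) ≤ 2 * slowPar N := by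
    exact_mod_cast (slowPar_succ_le N).trans (by omega)
  have h2 : (slowPar N : ℝ) ≤ slowPar (N + 1) := by exact_mod_cast slowPar_le_succ N
  have h3 : ((N + 1 : ℕ) : ℝ) ≤ 2 * N := by exact_mod_cast (by omega : N + 1 ≤ 2 * N)
  have hV : degUnit (N + 1) ≤ 8 * degUnit N := by
    calc degUnit (N + 1) ≤ (2 * (N : ℝ)) ^ 2 * (2 * slowPar N) :=
          mul_le_mul (pow_le_pow_left₀ (Nat.cast_nonneg _) h3 2) h1 (Nat.cast_nonneg _)
            (by positivity)
      _ = _ := by rw [degUnit]; ring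
  have hV' : degUnit N ≤ degUnit (N + 1) :=
    mul_le_mul (pow_le_pow_left₀ (Nat.cast_nonneg _) (Nat.cast_le.2 N.le_succ) 2) h2
      (Nat.cast_nonneg _) (by positivity)
  refine ⟨hV', hV, mul_le_mul hV' (by exact_mod_cast Nat.log_mono_right N.le_succ)
    (Nat.cast_nonneg _) (degUnit_nonneg _), ?_⟩
  have hl' : (Nat.log 2 (N + 1) : ℝ) ≤ 2 * Nat.log 2 N := by
    exact_mod_cast (log_succ_le N).trans (by omega)
  calc htUnit (N + 1) ≤ 8 * degUnit N * (2 * Nat.log 2 N) :=
        mul_le_mul hV hl' (Nat.cast_nonneg _) (mul_nonneg (by norm_num) (degUnit_nonneg _))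
    _ = _ := by rw [htUnit]; ring

theorem not_data {θ : ℂ} {x y : Fin 2 → ℂ} (D : Data θ x y) (hθ : Transcendental ℚ θ)
    (hx : LinearIndependent ℚ x) (hy : LinearIndependent ℚ y) : False := by
  obtain ⟨cD, cT, cU, c4, hcD, hcT, hcU, hc4, hev⟩ := exists_small_polynomial D hθ hx hy
  obtain ⟨C, hC⟩ := gelfond_criterion hθ (show (0 : ℝ) ≤ 16 by norm_num)
  set Dn : ℕ → ℝ := fun N => cD * degUnit N with hDn
  set Tn : ℕ → ℝ := fun N => cT * htUnit N with hTn
  have hk := tendsto_slowPar.eventually_ge_atTop 1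
  have hT : Tendsto Tn atTop atTop := by
    refine tendsto_atTop_mono' atTop ?_ tendsto_natCast_atTop_atTop
    filter_upwards [hk] with N hN
    exact ((one_le_degUnit hN).1.trans (degUnit_le_htUnit hN)).trans
      (le_mul_of_one_le_left (mul_nonneg (degUnit_nonneg N) (Nat.cast_nonneg _)) (hcD.trans hcT))
  have hDT : ∀ᶠ N in atTop, 1 ≤ Dn N ∧ Dn N ≤ Tn N ∧ Dn N ≤ 16 * Dn (N + 1) ∧
      Tn N ≤ 16 * Tn (N + 1) ∧ Dn (N + 1) ≤ 16 * Dn N ∧ Tn (N + 1) ≤ 16 * Tn N := by
    filter_upwards [hk] with N hN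
    obtain ⟨h1, h2, h3, h4⟩ := unit_growth hN
    have hV := (one_le_degUnit hN).2
    have hU := degUnit_le_htUnit hN
    have hD0 : (0 : ℝ) ≤ cD := by linarith
    have hT0 : (0 : ℝ) ≤ cT := by linarith
    refine ⟨one_le_mul_of_one_le_of_one_le hcD hV, mul_le_mul hcT hU (by linarith) hT0,
      ?_, ?_, ?_, ?_⟩ <;>
      simp only [hDn, hTn]
    · linarith [mul_le_mul_of_nonneg_left h1 hD0, mul_nonneg hD0 (degUnit_nonneg (N + 1))]
    · have h0 := mul_nonneg hT0 (show 0 ≤ htUnit (N + 1) by linarith)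
      linarith [mul_le_mul_of_nonneg_left h3 hT0]
    · linarith [mul_le_mul_of_nonneg_left h2 hD0, mul_nonneg hD0 (degUnit_nonneg N)]
    · linarith [mul_le_mul_of_nonneg_left h4 hT0]
  set ν : ℝ := (D.ν : ℝ) with hν
  have hν0 : 0 < ν := by rw [hν]; exact_mod_cast D.hν
  set B : ℝ := max 1 (32 * ν * (|C| * cD * cT + cU + c4)) with hB
  have hev' : ∀ᶠ N in atTop, ∃ P : ℤ[X], P ≠ 0 ∧ (P.natDegree : ℝ) ≤ Dn N ∧
      P.natDegree + Real.log (len P) ≤ Tn N ∧
      ‖aeval θ P‖ ≤ Real.exp (-(C * (Dn N * Tn N))) := by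
    filter_upwards [hev, tendsto_slowPar.eventually_ge_atTop ⌈B⌉₊] with N hN hkN
    obtain ⟨P, hP0, hd, hs, hsm⟩ := hN
    refine ⟨P, hP0, hd, hs, hsm.trans (Real.exp_le_exp.2 ?_)⟩
    have hkB : B ≤ slowPar N := (Nat.le_ceil B).trans (Nat.cast_le.2 hkN)
    have hk1' : (1 : ℝ) ≤ slowPar N := (le_max_left _ _).trans hkB
    have hk1 : 1 ≤ slowPar N := by exact_mod_cast hk1'
    have hN1 : (1 : ℝ) ≤ N := by exact_mod_cast (one_le_of_slowPar hk1).1
    have hl1 : (1 : ℝ) ≤ Nat.log 2 N := by exact_mod_cast (one_le_of_slowPar hk1).2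
    set W : ℝ := (N : ℝ) ^ 4 * (slowPar N : ℝ) ^ 2 * Nat.log 2 N with hW
    have hW0 : 0 ≤ W := by positivity
    have hUW : htUnit N ≤ W := by
      rw [htUnit, degUnit, hW]
      exact mul_le_mul_of_nonneg_right (mul_le_mul (pow_le_pow_right₀ hN1 (by norm_num))
        (le_self_pow₀ hk1' two_ne_zero) (Nat.cast_nonneg _) (by positivity)) (Nat.cast_nonneg _)
    have h4W : (N : ℝ) ^ 4 * (slowPar N : ℝ) ^ 2 ≤ W := le_mul_of_one_le_right (by positivity) hl1
    have hprod : C * (Dn N * Tn N) ≤ |C| * cD * cT * W := by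
      calc C * (Dn N * Tn N) = C * (cD * cT * W) := by
            simp only [hDn, hTn, htUnit, degUnit, hW]; ring
        _ ≤ |C| * (cD * cT * W) := mul_le_mul_of_nonneg_right (le_abs_self C)
            (mul_nonneg (mul_nonneg (by linarith) (by linarith)) hW0)
        _ = _ := by ring
    have hmain : (|C| * cD * cT + cU + c4) * W ≤
        (N : ℝ) ^ 4 * (slowPar N : ℝ) ^ 3 * Nat.log 2 N / (32 * ν) := by
      rw [le_div_iff₀ (by positivity)]
      calc (|C| * cD * cT + cU + c4) * W * (32 * ν)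
          = 32 * ν * (|C| * cD * cT + cU + c4) * W := by ring
        _ ≤ slowPar N * W := mul_le_mul_of_nonneg_right ((le_max_right _ _).trans hkB) hW0
        _ = _ := by rw [hW]; ring
    have hXX : (N : ℝ) ^ 4 * (slowPar N : ℝ) ^ 3 * Nat.log 2 N / (16 * ν) =
        2 * ((N : ℝ) ^ 4 * (slowPar N : ℝ) ^ 3 * Nat.log 2 N / (32 * ν)) := by
      field_simp; ring
    have hpos : 0 ≤ (N : ℝ) ^ 4 * (slowPar N : ℝ) ^ 3 * Nat.log 2 N / (32 * ν) := by positivity
    rw [hXX]
    linarith [mul_le_mul_of_nonneg_left hUW hcU, mul_le_mul_of_nonneg_left h4W hc4]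
  obtain ⟨N₀, hN₀⟩ := eventually_atTop.1 hev'
  choose P hP using hN₀
  refine hC Dn Tn hDT hT (fun N => if h : N₀ ≤ N then P N h else 0) ?_
  filter_upwards [eventually_ge_atTop N₀] with N hN
  rw [dif_pos hN]
  exact hP N hN

theorem algebraicIndependent_pair {u v : ℂ} (hu : Transcendental ℚ u)
    (hv : Transcendental ℚ⟮u⟯ v) : AlgebraicIndependent ℚ ![u, v] := by
  have h1 : AlgebraicIndependent ℚ (fun _ : Unit => u) :=
    (algebraicIndependent_unique_type_iff).2 hu
  have h2 : AlgebraicIndependent ℚ (fun o : Option Unit => o.elim v fun _ => u) := by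
    rw [h1.option_iff_transcendental, Set.range_const,
      ← IntermediateField.transcendental_adjoin_iff]
    exact hv
  have h3 := h2.comp ![some (), none] (by decide)
  convert h3 using 1
  ext i
  fin_cases i <;> rfl

/-- The six numbers. -/
def sixValues (x y : Fin 2 → ℂ) : Fin 6 → ℂ :=
  ![x 0, x 1, y 0, y 1, Complex.exp (x 1 * y 0), Complex.exp (x 1 * y 1)]

/-- No field of transcendence degree one holds the six numbers. -/
theorem not_isIntegral_sixValues {θ : ℂ} (hθ : Transcendental ℚ θ) {x y : Fin 2 → ℂ}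
    (hx : LinearIndependent ℚ x) (hy : LinearIndependent ℚ y)
    (h : ∀ j, IsAlgebraic ℚ (Complex.exp (x 0 * y j)))
    (hint : ∀ j, IsIntegral ℚ⟮θ⟯ (sixValues x y j)) : False := by
  have hgen : ∀ i, IsIntegral ℚ⟮θ⟯ (gen x y i) :=
    Fin.cases (show IsIntegral ℚ⟮θ⟯ (1 : ℂ) from isIntegral_one) fun j => hint j
  have halg : ∀ j, IsAlgebraic ℚ (algGen x y j) :=
    Fin.cases (show IsAlgebraic ℚ (1 : ℂ) from isAlgebraic_one)
      fun j => by fin_cases j <;> simpa [algGen] using h _
  obtain ⟨ν, w, q, e, M, Nm, hν, hw, hq, he, hact, hactN, hdegN, hindep⟩ :=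
    exists_matrices hθ (gen x y) (algGen x y) hgen halg
  exact not_data (θ := θ) (x := x) (y := y)
    ⟨ν, w, q, e, M, Nm, hν, hw, hq, he, hact, hactN, hdegN, hindep⟩ hθ hx hy

/-- **Brownawell and Waldschmidt, 1973.** -/
theorem brownawell_waldschmidt {x y : Fin 2 → ℂ} (hx : LinearIndependent ℚ x)
    (hy : LinearIndependent ℚ y) (h : ∀ j, IsAlgebraic ℚ (Complex.exp (x 0 * y j))) :
    ∃ i j, AlgebraicIndependent ℚ ![sixValues x y i, sixValues x y j] := by
  obtain ⟨i₀, hi₀⟩ : ∃ i, Transcendental ℚ (sixValues x y i) := by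
    by_contra hall
    simp only [Transcendental, not_exists, not_not] at hall
    exact FA.HermiteLindemann.transcendental_exp (mul_ne_zero (hx.ne_zero 0) (hy.ne_zero 0))
      ((hall 0).mul (hall 2)) (h 0)
  by_contra hall
  refine not_isIntegral_sixValues hi₀ hx hy h fun j => IsAlgebraic.isIntegral ?_
  by_contra hv
  exact hall ⟨i₀, j, algebraicIndependent_pair hi₀ hv⟩

theorem linearIndependent_pair_of_irrational {z : ℂ} (hz : ∀ r : ℚ, z ≠ r) {u : ℂ} (hu : u ≠ 0) :
    LinearIndependent ℚ ![u, u * z] := by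
  refine LinearIndependent.pair_iff.2 fun s t hst => ?_
  rw [Rat.smul_def, Rat.smul_def] at hst
  have h0 : (s : ℂ) + t * z = 0 := (mul_eq_zero.1 (by linear_combination hst :
    u * ((s : ℂ) + t * z) = 0)).resolve_left hu
  rcases eq_or_ne t 0 with rfl | ht
  · exact ⟨by simpa using h0, rfl⟩
  · refine absurd ?_ (hz (-s / t))
    push_cast
    rw [eq_div_iff (Rat.cast_ne_zero.2 ht)]
    linear_combination h0

theorem isIntegral_self (θ : ℂ) : IsIntegral ℚ⟮θ⟯ θ :=
  isIntegral_algebraMap (x := (⟨θ, IntermediateField.mem_adjoin_simple_self ℚ θ⟩ : ℚ⟮θ⟯))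

/-- **Schneider's eighth problem**: `e ^ e` or `e ^ (e ²)` is transcendental. -/
theorem schneider_eighth_problem :
    Transcendental ℚ (Complex.exp (Complex.exp 1)) ∨
      Transcendental ℚ (Complex.exp (Complex.exp 2)) := by
  by_contra hc
  simp only [Transcendental, not_or, not_not] at hc
  set E := Complex.exp 1 with hE
  have hE0 : E ≠ 0 := Complex.exp_ne_zero 1
  have hEt : Transcendental ℚ E :=
    FA.HermiteLindemann.transcendental_exp one_ne_zero isAlgebraic_one
  have hE2 : Complex.exp 2 = E ^ 2 := by rw [hE, ← Complex.exp_nat_mul]; norm_num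
  rw [hE2] at hc
  have hirr : ∀ r : ℚ, E ≠ r := fun r hr => hEt (hr ▸ isAlgebraic_algebraMap r)
  have hirr' : ∀ r : ℚ, E⁻¹ ≠ r := fun r hr => hirr r⁻¹ (by
    rw [Rat.cast_inv, ← hr, inv_inv])
  have hx : LinearIndependent ℚ ![1, E⁻¹] := by
    simpa using linearIndependent_pair_of_irrational hirr' one_ne_zero
  have hy : LinearIndependent ℚ ![E, E ^ 2] := by
    simpa [sq] using linearIndependent_pair_of_irrational hirr hE0
  refine not_isIntegral_sixValues hEt hx hy (fun j => by
    fin_cases j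
    · simpa using hc.1
    · simpa using hc.2) ?_
  have h1 : E⁻¹ * E ^ 2 = E := by field_simp
  have hE' := isIntegral_self E
  intro j
  fin_cases j <;> simp [sixValues, inv_mul_cancel₀ hE0, h1, ← hE]
  exacts [isIntegral_one, hE'.inv, hE', hE', hE', hc.1.isIntegral.tower_top]

/-- The same for the real numbers. -/
theorem schneider_eighth_problem_real :
    Transcendental ℚ (Real.exp (Real.exp 1)) ∨ Transcendental ℚ (Real.exp (Real.exp 2)) := by
  rw [← transcendental_algebraMap_iff (A := ℂ) (algebraMap ℝ ℂ).injective,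
    ← transcendental_algebraMap_iff (A := ℂ) (algebraMap ℝ ℂ).injective]
  simpa using schneider_eighth_problem

/-- `e ^ (π ²)` is transcendental or `π` and `e` are algebraically independent. -/
theorem exp_pi_sq_or_algebraicIndependent :
    Transcendental ℚ (Real.exp (Real.pi ^ 2)) ∨
      AlgebraicIndependent ℚ ![(Real.pi : ℂ), Complex.exp 1] := by
  by_contra hc
  simp only [not_or] at hc
  obtain ⟨hc1, hc2⟩ := hc
  rw [← transcendental_algebraMap_iff (A := ℂ) (algebraMap ℝ ℂ).injective] at hc1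
  simp only [Transcendental, not_not, Complex.coe_algebraMap, Complex.ofReal_exp] at hc1
  have hI : IsAlgebraic ℚ Complex.I :=
    (IsIntegral.of_pow two_pos (by rw [Complex.I_sq]; exact isIntegral_one.neg)).isAlgebraic
  set u : ℂ := (Real.pi : ℂ) * Complex.I with hu
  have hu0 : u ≠ 0 := mul_ne_zero (Complex.ofReal_ne_zero.2 Real.pi_ne_zero) Complex.I_ne_zero
  have hexp : Complex.exp u = -1 := Complex.exp_pi_mul_I
  have hπ : Transcendental ℚ (Real.pi : ℂ) := fun h =>
    FA.HermiteLindemann.transcendental_exp hu0 (h.mul hI)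
      (by rw [hexp]; exact isAlgebraic_one.neg)
  have hirr : ∀ r : ℚ, u ≠ r := fun r h => by
    have := congrArg Complex.im h
    simp [hu, Real.pi_ne_zero] at this
  have he : IsIntegral ℚ⟮(Real.pi : ℂ)⟯ (Complex.exp 1) := IsAlgebraic.isIntegral (by
    by_contra he
    exact hc2 (algebraicIndependent_pair hπ he))
  have hy : LinearIndependent ℚ ![1, -u] := by
    simpa using linearIndependent_pair_of_irrational (z := -u) (fun r h => hirr (-r) (by
      rw [Rat.cast_neg, ← h, neg_neg])) one_ne_zero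
  have hx : LinearIndependent ℚ ![u, 1] := LinearIndependent.pair_symm_iff.1
    (by simpa using linearIndependent_pair_of_irrational hirr one_ne_zero)
  have hu2 : u * -u = ((Real.pi : ℂ) ^ 2) := by
    rw [hu]; linear_combination (-(Real.pi : ℂ) ^ 2) * Complex.I_sq
  have hπ' := isIntegral_self (Real.pi : ℂ)
  have hu' : IsIntegral ℚ⟮(Real.pi : ℂ)⟯ u := hπ'.mul hI.isIntegral.tower_top
  refine not_isIntegral_sixValues hπ hx hy (fun j => by
    fin_cases j
    · simpa [hexp] using isAlgebraic_one.neg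
    · simpa [hu2] using hc1) ?_
  intro j
  fin_cases j <;> simp [sixValues, Complex.exp_neg, hexp]
  exacts [hu', isIntegral_one, isIntegral_one, hu', he, isIntegral_one]

end FA.BrownawellWaldschmidt

end
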