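import Fermat.Agent.BrownawellWaldschmidt.Construction
import Fermat.Agent.GelfondCubic.SmallPolynomial

/-!
# The sizes

The degrees are `O (degUnit N)`, the heights `O (htUnit N)`; the main term of the value is
`exp (-N ⁴ k ³ ℓ / (16 ν))` with `ℓ = log₂ N`.
-/

set_option autoImplicit false

noncomputable section

open Finset Polynomial Filter

namespace FA.BrownawellWaldschmidt

open FA.GelfondCubic (slowPar one_le_of_slowPar slowPar_pow_le slowPar_pow_four_le slowPar_le_log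
  slowPar_succ_le slowPar_le_succ log_succ_le tendsto_slowPar nat_le_exp_log inv_two_pow_le
  mul_le_exp pow_le_exp nat_succ_le_exp cast_le_exp combine_le len small_sum Small.smul
  norm_aeval_le exists_norm_poly_basis aeval_ne_zero one_le_len)

/-- The unit of the degrees. -/
def degUnit (N : ℕ) : ℝ := (N : ℝ) ^ 2 * slowPar N

/-- The unit of the heights. -/
def htUnit (N : ℕ) : ℝ := degUnit N * Nat.log 2 N

variable {N : ℕ}

theorem slowPar_sq_le_log (N : ℕ) : slowPar N ^ 2 ≤ Nat.log 2 N := by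
  refine le_trans ?_ (slowPar_pow_four_le N)
  rcases Nat.eq_zero_or_pos (slowPar N) with h | h
  · simp [h]
  · exact Nat.pow_le_pow_right h (by norm_num)

theorem degUnit_nonneg (N : ℕ) : 0 ≤ degUnit N := by unfold degUnit; positivity

theorem parA_eq (N : ℕ) : (parA N : ℝ) = degUnit N := by
  rw [parA, degUnit]; push_cast; rfl

theorem ordHigh_eq (N : ℕ) : (ordHigh N : ℝ) = 4 * degUnit N := by
  rw [ordHigh, Nat.cast_mul, parA_eq]; norm_num

theorem degExp_eq (N : ℕ) :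
    ((parL' N * (parS N + parS N) : ℕ) : ℝ) = 2 * degUnit N := by
  rw [parL', parS, degUnit]; push_cast; ring

theorem degUnit_le_htUnit (hk : 1 ≤ slowPar N) : degUnit N ≤ htUnit N :=
  le_mul_of_one_le_right (degUnit_nonneg N) (by exact_mod_cast (one_le_of_slowPar hk).2)

theorem htExp_le (N : ℕ) : ((parL N * (parS N + parS N) : ℕ) : ℝ) ≤ 2 * htUnit N := by
  rw [parL, parS, htUnit, degUnit]
  push_cast
  have h : (slowPar N : ℝ) ^ 2 ≤ Nat.log 2 N := by exact_mod_cast slowPar_sq_le_log N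
  calc (N : ℝ) * (slowPar N : ℝ) ^ 2 * ((N : ℝ) * slowPar N + (N : ℝ) * slowPar N)
      = 2 * ((N : ℝ) ^ 2 * slowPar N * (slowPar N : ℝ) ^ 2) := by ring
    _ ≤ _ := by gcongr

theorem one_le_degUnit (hk : 1 ≤ slowPar N) : (N : ℝ) ≤ degUnit N ∧ (1 : ℝ) ≤ degUnit N := by
  have h1 : (1 : ℝ) ≤ N := by exact_mod_cast (one_le_of_slowPar hk).1
  have h2 : (1 : ℝ) ≤ slowPar N := by exact_mod_cast hk
  have h := (le_self_pow₀ h1 (by norm_num : (2 : ℕ) ≠ 0)).trans
    (le_mul_of_one_le_right (by positivity) h2)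
  exact ⟨h, h1.trans h⟩

theorem par_le_pow_four (hk : 1 ≤ slowPar N) :
    parA N ≤ N ^ 4 ∧ parL N ≤ N ^ 4 ∧ parL' N ≤ N ^ 4 ∧ parS N ≤ N ^ 4 := by
  obtain ⟨hN, -⟩ := one_le_of_slowPar hk
  have h1 : slowPar N ≤ N := (slowPar_le_log N).trans (Nat.log_le_self 2 N)
  have h2 : slowPar N ^ 2 ≤ N := slowPar_pow_le N (by norm_num) (by norm_num)
  refine ⟨?_, ?_, Nat.le_self_pow (by norm_num) N, ?_⟩
  · calc parA N ≤ N ^ 2 * N := Nat.mul_le_mul_left _ h1
      _ = N ^ 3 := by ring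
      _ ≤ N ^ 4 := Nat.pow_le_pow_right hN (by norm_num)
  · calc parL N ≤ N * N := Nat.mul_le_mul_left _ h2
      _ = N ^ 2 := by ring
      _ ≤ N ^ 4 := Nat.pow_le_pow_right hN (by norm_num)
  · calc parS N ≤ N * N := Nat.mul_le_mul_left _ h1
      _ = N ^ 2 := by ring
      _ ≤ N ^ 4 := Nat.pow_le_pow_right hN (by norm_num)

theorem nat_pow_le_exp (hk : 1 ≤ slowPar N) {m : ℕ} {e : ℝ} (he : 0 ≤ e)
    (hm : (m : ℝ) ≤ e * degUnit N) : (N : ℝ) ^ m ≤ Real.exp (2 * e * htUnit N) := by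
  refine (pow_le_pow_left₀ (Nat.cast_nonneg _) (nat_le_exp_log N) m).trans ?_
  rw [← Real.exp_nat_mul, Real.exp_le_exp]
  have hl : (1 : ℝ) ≤ Nat.log 2 N := by exact_mod_cast (one_le_of_slowPar hk).2
  calc (m : ℝ) * ((Nat.log 2 N : ℝ) + 1) ≤ e * degUnit N * (2 * Nat.log 2 N) :=
        mul_le_mul hm (by linarith) (by positivity) (mul_nonneg he (degUnit_nonneg N))
    _ = _ := by rw [htUnit]; ring

theorem factorial_le_exp (hk : 1 ≤ slowPar N) {t : ℕ} (ht : t ≤ ordHigh N) :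
    (t.factorial : ℝ) ≤ Real.exp (48 * htUnit N) := by
  have hN1 : (1 : ℝ) ≤ N := by exact_mod_cast (one_le_of_slowPar hk).1
  have hV := degUnit_le_htUnit hk
  have htV : (t : ℝ) ≤ 4 * degUnit N := (Nat.cast_le.2 ht).trans_eq (ordHigh_eq N)
  have hA : degUnit N ≤ (N : ℝ) ^ 4 := by
    rw [← parA_eq]; exact_mod_cast (par_le_pow_four hk).1
  refine le_trans (Nat.cast_le.2 (Nat.factorial_le_pow t)) ?_
  push_cast
  refine (pow_le_pow_left₀ (Nat.cast_nonneg _) (htV.trans (mul_le_mul_of_nonneg_left hA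
    zero_le_four)) t).trans ?_
  rw [mul_pow, ← pow_mul, show (48 : ℝ) = 4 * 4 + 2 * 16 by norm_num]
  refine mul_le_exp (by positivity) (pow_le_exp zero_le_four (e := 4) (by linarith))
    (nat_pow_le_exp hk (by norm_num) ?_)
  push_cast
  linarith

theorem ordLow_facts {θ : ℂ} {x y : Fin 2 → ℂ} (D : Data θ x y) (hk : 1 ≤ slowPar N)
    (hN : 8 * D.ν ≤ N) : 1 ≤ ordLow D N ∧
      (N : ℝ) ^ 4 * (slowPar N : ℝ) ^ 3 / (8 * D.ν) ≤
        ((ordLow D N * (parS N * parS N) : ℕ) : ℝ) := by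
  obtain ⟨hN1, -⟩ := one_le_of_slowPar hk
  have hν := D.hν
  have hA : N ≤ parA N :=
    (Nat.le_self_pow two_ne_zero N).trans (Nat.le_mul_of_pos_right _ hk)
  have hlt : parA N < ordLow D N * (4 * D.ν) + 4 * D.ν := Nat.lt_div_mul_add (by omega)
  refine ⟨Nat.div_pos (by omega) (by omega), ?_⟩
  rw [div_le_iff₀ (by positivity)]
  have h : N ^ 4 * slowPar N ^ 3 ≤ ordLow D N * (parS N * parS N) * (8 * D.ν) := by
    calc N ^ 4 * slowPar N ^ 3 = parA N * (parS N * parS N) := by rw [parA, parS]; ring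
      _ ≤ 2 * (ordLow D N * (4 * D.ν)) * (parS N * parS N) :=
          Nat.mul_le_mul_right _ (by omega)
      _ = _ := by ring
  exact_mod_cast h

theorem decay_le {ν : ℝ} (hν : 0 < ν) {M : ℕ}
    (hM : (N : ℝ) ^ 4 * (slowPar N : ℝ) ^ 3 / (8 * ν) ≤ (M : ℝ)) :
    ((2 : ℝ) ^ Nat.log 2 N)⁻¹ ^ M ≤
      Real.exp (-((N : ℝ) ^ 4 * (slowPar N : ℝ) ^ 3 * Nat.log 2 N / (16 * ν))) := by
  rw [inv_pow, ← pow_mul]
  refine (inv_two_pow_le _).trans (Real.exp_le_exp.2 (neg_le_neg ?_))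
  rw [Nat.cast_mul]
  calc (N : ℝ) ^ 4 * (slowPar N : ℝ) ^ 3 * Nat.log 2 N / (16 * ν) =
        (Nat.log 2 N : ℝ) * ((N : ℝ) ^ 4 * (slowPar N : ℝ) ^ 3 / (8 * ν)) / 2 := by
          field_simp; ring
    _ ≤ _ := by gcongr

variable {θ : ℂ} {x y : Fin 2 → ℂ} (D : Data θ x y)

/-- The sum of the `|w j| / |w i|`. -/
def spreadW : ℝ := ∑ i, ∑ j, ‖D.w j‖ / ‖D.w i‖

/-- **The small polynomial.** -/
theorem exists_small_polynomial (hθ : Transcendental ℚ θ) (hx : LinearIndependent ℚ x)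
    (hy : LinearIndependent ℚ y) :
    ∃ cD cT cU c4 : ℝ, 1 ≤ cD ∧ cD ≤ cT ∧ 0 ≤ cU ∧ 0 ≤ c4 ∧ ∀ᶠ N in atTop, ∃ P : ℤ[X], P ≠ 0 ∧
      (P.natDegree : ℝ) ≤ cD * degUnit N ∧ P.natDegree + Real.log (len P) ≤ cT * htUnit N ∧
      ‖aeval θ P‖ ≤ Real.exp (cU * htUnit N + c4 * ((N : ℝ) ^ 4 * (slowPar N : ℝ) ^ 2) -
        (N : ℝ) ^ 4 * (slowPar N : ℝ) ^ 3 * Nat.log 2 N / (16 * D.ν)) := by
  obtain ⟨d₀, K, hK, hval⟩ := exists_small_valueMat D
  set ν : ℝ := (D.ν : ℝ) with hν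
  have hν1 : 1 ≤ ν := by rw [hν]; exact_mod_cast D.hν
  set Θ := max 1 ‖θ‖ with hΘ
  have hΘ1 : 1 ≤ Θ := le_max_left _ _
  set cδ : ℝ := d₀ * 7 with hcδ
  have hcδ0 : 0 ≤ cδ := by positivity
  set cB : ℝ := K * 10 + 72 with hcB
  set cp : ℝ := cδ + (7 + cδ + cB) with hcp
  set cG : ℝ := 7 + (cp + cB) with hcG
  set cY : ℝ := ν + 1 + (cG + Θ * (2 * cδ)) with hcY
  set cM : ℝ := 7 + (cp + Θ * cδ + 6) with hcM
  set cq : ℝ := ‖aeval θ D.q‖ * 7 + ‖(D.e : ℂ)‖ * 2 with hcq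
  refine ⟨2 * ν * cδ + 1, 2 * ν * cδ + 1 + ν * (ν + cG),
    cq + (48 + cM) + (spreadW D + ν * cY), linSize x,
    le_add_of_nonneg_left (by positivity), le_add_of_nonneg_right (by positivity),
    ?_, zero_le_one.trans (one_le_linSize x), ?_⟩
  · have hs : 0 ≤ spreadW D := sum_nonneg fun _ _ => sum_nonneg fun _ _ => by positivity
    positivity
  have hev1 := tendsto_slowPar.eventually_ge_atTop (max 1 ⌈3 * (linSize y + 1)⌉₊)
  have hev2 := eventually_ge_atTop (max (8 * D.ν) ⌈18 * linSize x * linSize y⌉₊)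
  filter_upwards [hev1, hev2] with N hk' hN'
  have hk : 1 ≤ slowPar N := (le_max_left _ _).trans hk'
  have hN8 : 8 * D.ν ≤ N := (le_max_left _ _).trans hN'
  have hN1 : (1 : ℝ) ≤ N := by exact_mod_cast (one_le_of_slowPar hk).1
  have hbig : 18 * linSize x * linSize y ≤ (N : ℝ) ^ 2 :=
    ((Nat.le_ceil _).trans (Nat.cast_le.2 ((le_max_right _ _).trans hN'))).trans
      (le_self_pow₀ hN1 two_ne_zero)
  have hr : 3 * (linSize y + 1) * slowPar N ≤ N := by
    refine (mul_le_mul_of_nonneg_right ((Nat.le_ceil _).trans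
      (Nat.cast_le.2 ((le_max_right _ _).trans hk'))) (Nat.cast_nonneg _)).trans ?_
    rw [← sq]
    exact_mod_cast slowPar_pow_le N (i := 2) (by norm_num) (by norm_num)
  set U := htUnit N with hU
  obtain ⟨hNV, hV1⟩ := one_le_degUnit hk
  have hVU : degUnit N ≤ U := degUnit_le_htUnit hk
  have hU1 : 1 ≤ U := hV1.trans hVU
  obtain ⟨hlow, hM⟩ := ordLow_facts D hk hN8
  obtain ⟨hAH, hLH, hLH', hSH⟩ := par_le_pow_four hk
  set A := parA N with hA
  set T := ordHigh N with hT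
  set E₁ := parL' N * (parS N + parS N) with hE₁
  set E₂ := parL N * (parS N + parS N) with hE₂
  have hAV : (A : ℝ) = degUnit N := parA_eq N
  have hTV : (T : ℝ) = 4 * degUnit N := ordHigh_eq N
  have hE₁V : (E₁ : ℝ) = 2 * degUnit N := degExp_eq N
  have hE₂U : (E₂ : ℝ) ≤ 2 * U := htExp_le N
  set δ := d₀ * (A + T + E₁) with hδ
  have hδV : (δ : ℝ) ≤ cδ * degUnit N := by
    rw [hδ, hcδ]
    push_cast
    rw [hAV, hTV, hE₁V]
    exact le_of_eq (by ring)
  have hδU : (δ : ℝ) ≤ cδ * U := hδV.trans (mul_le_mul_of_nonneg_left hVU hcδ0)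
  have h2δ : ((δ + δ : ℕ) : ℝ) ≤ 2 * cδ * U := by push_cast; linarith
  have hn : ((N ^ 4 * slowPar N ^ 3 : ℕ) : ℝ) ≤ Real.exp (7 * U) := by
    have hNU : (N : ℝ) ≤ U := hNV.trans hVU
    have hkU : (slowPar N : ℝ) ≤ U := le_trans
      (by exact_mod_cast (slowPar_le_log N).trans (Nat.log_le_self 2 N)) hNU
    push_cast
    calc (N : ℝ) ^ 4 * (slowPar N : ℝ) ^ 3 ≤ U ^ 4 * U ^ 3 := by gcongr
      _ = U ^ 7 := by ring
      _ ≤ Real.exp U ^ 7 := pow_le_pow_left₀ (by linarith)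
          (by linarith [Real.add_one_le_exp U]) 7
      _ = _ := by rw [← Real.exp_nat_mul]; norm_num
  -- the matrices
  set B := K ^ (A + T + E₁ + E₂ + 1) * ((N ^ 4 : ℕ) : ℝ) ^ (A + 2 * T) with hB
  have hH1 : 1 ≤ N ^ 4 := Nat.one_le_pow 4 N (one_le_of_slowPar hk).1
  have hH1' : (1 : ℝ) ≤ ((N ^ 4 : ℕ) : ℝ) := by exact_mod_cast hH1
  have hB1 : 1 ≤ B := one_le_mul_of_one_le_of_one_le (one_le_pow₀ hK) (one_le_pow₀ hH1')
  have hBU : B ≤ Real.exp (cB * U) := by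
    refine mul_le_exp (by positivity) (pow_le_exp (by linarith) (e := 10) ?_) ?_
    · push_cast
      linarith
    · rw [Nat.cast_pow, ← pow_mul, show (72 : ℝ) = 2 * 36 by norm_num]
      refine nat_pow_le_exp hk (by norm_num) ?_
      push_cast
      linarith
  have hsmall : ∀ t ≤ T, ∀ (a : FunIndex N) (l : PointIndex N),
      FA.GelfondCubic.Small (valueMat D t a l) δ B := fun t ht a l =>
    (hval (N ^ 4) t a l hH1 hAH hLH hLH' hSH hSH).mono
      (Nat.mul_le_mul_left _ (by omega)) (mul_le_mul (pow_le_pow_right₀ hK (by omega))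
        (pow_le_pow_right₀ hH1' (by omega)) (by positivity) (by positivity))
  obtain ⟨p, hp0, hpd, hpl, hzero⟩ := exists_aux D N hθ hk hlow hB1 hsmall
  set Lp := ((δ + 1 : ℕ) : ℝ) * ((N ^ 4 * slowPar N ^ 3 * (δ + 1) : ℕ) * B) with hLp
  have hLp0 : 0 ≤ Lp := by positivity
  have hLpU : Lp ≤ Real.exp (cp * U) := by
    refine mul_le_exp (by positivity) (nat_succ_le_exp hδU) (mul_le_exp (by linarith) ?_ hBU)
    rw [Nat.cast_mul]
    exact mul_le_exp (Nat.cast_nonneg _) hn (nat_succ_le_exp hδU)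
  -- the nonzero value
  obtain ⟨t, ht, l, hne⟩ := exists_value_ne_zero N hθ hx hy hk hbig hp0
  set BG := ((N ^ 4 * slowPar N ^ 3 : ℕ) : ℝ) * (Lp * B) with hBG
  have hG : FA.GelfondCubic.Small (sumMat D N p t l) (δ + δ) BG := by
    refine (small_sum _ _ fun a _ =>
      Small.smul (p a) (hpd a) (hpl a) (hsmall t ht.le a l)).mono le_rfl (le_of_eq ?_)
    rw [sum_const, card_univ, card_funIndex, nsmul_eq_mul]
  have hBGU : BG ≤ Real.exp (cG * U) :=
    mul_le_exp (by positivity) hn (mul_le_exp (by linarith) hLpU hBU)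
  have hγ : scaleAt D N t * valueSum (θ := θ) (x := x) (y := y) N p t l ≠ 0 :=
    mul_ne_zero (scaleAt_ne_zero D N hθ t) hne
  obtain ⟨hdet, hdeg, hlen, hval'⟩ :=
    exists_norm_poly_basis D.hν D.w D.hw D.indep hG (acts_sumMat D N p t l) hγ
  have hdegV : ((sumMat D N p t l).det.natDegree : ℝ) ≤ (2 * ν * cδ + 1) * degUnit N := by
    refine (Nat.cast_le.2 hdeg).trans ?_
    push_cast
    rw [← hν]
    linarith [mul_le_mul_of_nonneg_left hδV (show (0 : ℝ) ≤ ν by linarith)]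
  refine ⟨_, hdet, hdegV, ?_, ?_⟩
  · have h1 : Real.log (len (sumMat D N p t l).det) ≤ ν * (ν + cG) * U := by
      rw [Real.log_le_iff_le_exp (zero_lt_one.trans_le (one_le_len hdet))]
      refine hlen.trans ?_
      calc (ν * BG) ^ D.ν ≤ Real.exp ((ν + cG) * U) ^ D.ν :=
            pow_le_pow_left₀ (by positivity)
              (mul_le_exp (by positivity) (cast_le_exp hU1 (by linarith)) hBGU) _
        _ = _ := by rw [← Real.exp_nat_mul, ← hν, mul_assoc]
    have h2 := mul_le_mul_of_nonneg_left hVU (show (0 : ℝ) ≤ 2 * ν * cδ + 1 by positivity)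
    linarith
  -- its value
  have hPb : ∀ a, ‖aeval θ (p a)‖ ≤ Lp * Θ ^ δ := fun a => (norm_aeval_le θ _ (hpd a)).trans
    (mul_le_mul_of_nonneg_right (hpl a) (by positivity))
  have hγ' := norm_valueSum_le D N hy hk hr hPb hzero t l
  set X4 := Real.exp (linSize x * ((N : ℝ) ^ 4 * (slowPar N : ℝ) ^ 2)) with hX4
  set Z := Real.exp (-((N : ℝ) ^ 4 * (slowPar N : ℝ) ^ 3 * Nat.log 2 N / (16 * ν))) with hZ
  have hM' : ((N ^ 4 * slowPar N ^ 3 : ℕ) : ℝ) * (Lp * Θ ^ δ * ((N : ℝ) ^ 3) ^ A *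
      Real.exp (linSize x * (parL N : ℝ) * (N : ℝ) ^ 3)) ≤ Real.exp (cM * U) * X4 := by
    rw [show linSize x * (parL N : ℝ) * (N : ℝ) ^ 3 =
      linSize x * ((N : ℝ) ^ 4 * (slowPar N : ℝ) ^ 2) by rw [parL]; push_cast; ring, ← hX4,
      ← mul_assoc]
    refine mul_le_mul_of_nonneg_right (mul_le_exp (by positivity) hn
      (mul_le_exp (by positivity) (mul_le_exp (by positivity) hLpU
        (pow_le_exp (by linarith) hδU)) ?_)) (Real.exp_pos _).le
    rw [← pow_mul, show (6 : ℝ) = 2 * 3 by norm_num]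
    refine nat_pow_le_exp hk (by norm_num) ?_
    push_cast
    linarith
  have hdecay : ((2 : ℝ) ^ Nat.log 2 N)⁻¹ ^ (ordLow D N * (parS N * parS N)) ≤ Z :=
    decay_le (by linarith) hM
  have hgam : ‖valueSum (θ := θ) (x := x) (y := y) N p t l‖ ≤
      Real.exp ((48 + cM) * U) * (X4 * Z) := by
    refine hγ'.trans ?_
    calc _ ≤ Real.exp (48 * U) * (Real.exp (cM * U) * X4 * Z) :=
          mul_le_mul (factorial_le_exp hk ht.le) (mul_le_mul hM' hdecay (by positivity)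
            (by positivity)) (by positivity) (Real.exp_pos _).le
      _ = _ := by
          rw [add_mul (48 : ℝ) cM U, Real.exp_add (48 * U) (cM * U)]
          ring
  have hY : ν * (BG * Θ ^ (δ + δ)) + 1 ≤ Real.exp (cY * U) := by
    have hz : BG * Θ ^ (δ + δ) ≤ Real.exp ((cG + Θ * (2 * cδ)) * U) :=
      mul_le_exp (by positivity) hBGU (pow_le_exp (by linarith) h2δ)
    have h1 : (1 : ℝ) ≤ Real.exp ((cG + Θ * (2 * cδ)) * U) := Real.one_le_exp (by positivity)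
    calc ν * (BG * Θ ^ (δ + δ)) + 1 ≤ (ν + 1) * Real.exp ((cG + Θ * (2 * cδ)) * U) := by
          rw [add_mul, one_mul]
          exact add_le_add (mul_le_mul_of_nonneg_left hz (by linarith)) h1
      _ ≤ _ := mul_le_exp (Real.exp_pos _).le (cast_le_exp hU1 (by linarith)) le_rfl
  have htT : (t : ℝ) ≤ 4 * degUnit N := (Nat.cast_le.2 ht.le).trans_eq hTV
  have hq' : ‖scaleAt D N t‖ ≤ Real.exp (cq * U) := by
    rw [scaleAt, scale, norm_mul, norm_pow, norm_pow]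
    refine mul_le_exp (by positivity) (pow_le_exp (norm_nonneg _) ?_)
      (pow_le_exp (norm_nonneg _) hE₂U)
    rw [← hA, ← hE₁]
    push_cast
    linarith
  have hspread : 0 ≤ spreadW D := sum_nonneg fun _ _ => sum_nonneg fun _ _ => by positivity
  refine hval'.trans ?_
  rw [norm_mul]
  refine (combine_le (norm_nonneg _) hspread (by positivity) hq' hgam (cast_le_exp hU1 hspread)
    hY).trans_eq ?_
  rw [← hν]
  congr 1

end FA.BrownawellWaldschmidt

end
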